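import Mathlib
import Fermat.Prelude.Def_GaloisRep_DeformationCondition
import Fermat.Agent.GaloisBasic.MatrixLift
import Fermat.Agent.GaloisBasic.TestAlgebra

/-!
# Deformation conditions from conditions on matrices

A property of matrix representations over Artinian test algebras which is invariant under
conjugation, functorial and detected by jointly injective maps gives a deformation condition.
-/

set_option autoImplicit false

noncomputable section

open IsLocalRing GaloisRep FermatAgent.GaloisBasic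

namespace FermatAgent.RT

variable {𝒪 : Type} [CommRing 𝒪] [IsLocalRing 𝒪]

/-- A condition on matrix representations over Artinian test algebras. -/
structure MatCond (𝒪 : Type) [CommRing 𝒪] [IsLocalRing 𝒪] where
  /-- the predicate -/
  P : ∀ ⦃A : Type⦄ [CommRing A] [IsLocalRing A] [Algebra 𝒪 A], MatRep A → Prop
  conj : ∀ ⦃A : Type⦄ [CommRing A] [IsLocalRing A] [Algebra 𝒪 A],
    IsArtinianTestAlgebra 𝒪 A → ∀ ⦃M M' : MatRep A⦄, MatConj M M' → P M → P M'
  map : ∀ ⦃A B : Type⦄ [CommRing A] [IsLocalRing A] [Algebra 𝒪 A]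
    [CommRing B] [IsLocalRing B] [Algebra 𝒪 B],
    IsArtinianTestAlgebra 𝒪 A → IsArtinianTestAlgebra 𝒪 B →
    ∀ (φ : A →ₐ[𝒪] B) ⦃M : MatRep A⦄, P M → P (mapRep (φ : A →+* B) M)
  reflect : ∀ ⦃C A B : Type⦄ [CommRing C] [IsLocalRing C] [Algebra 𝒪 C]
    [CommRing A] [IsLocalRing A] [Algebra 𝒪 A] [CommRing B] [IsLocalRing B] [Algebra 𝒪 B],
    IsArtinianTestAlgebra 𝒪 C → IsArtinianTestAlgebra 𝒪 A → IsArtinianTestAlgebra 𝒪 B →
    ∀ (f : C →ₐ[𝒪] A) (g : C →ₐ[𝒪] B), Function.Injective (fun x => (f x, g x)) →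
      ∀ ⦃M : MatRep C⦄, P (mapRep (f : C →+* A) M) → P (mapRep (g : C →+* B) M) → P M

namespace MatCond

/-- Both conditions. -/
def inf (X Y : MatCond 𝒪) : MatCond 𝒪 where
  P _A _ _ _ M := X.P M ∧ Y.P M
  conj _A _ _ _ hA _ _ h hM := ⟨X.conj hA h hM.1, Y.conj hA h hM.2⟩
  map _A _B _ _ _ _ _ _ hA hB φ _ hM := ⟨X.map hA hB φ hM.1, Y.map hA hB φ hM.2⟩
  reflect _C _A _B _ _ _ _ _ _ _ _ _ hC hA hB f g h _ h1 h2 :=
    ⟨X.reflect hC hA hB f g h h1.1 h2.1, Y.reflect hC hA hB f g h h1.2 h2.2⟩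

variable (X : MatCond 𝒪)

/-- The condition on representations over local algebras: it holds at every Artinian quotient. -/
def cond : ∀ ⦃A : Type⦄ [CommRing A] [IsLocalRing A] [Algebra 𝒪 A], GaloisRepAdic A → Prop :=
  fun A _ _ _ ρ => ∀ ⦃B : Type⦄ [CommRing B] [IsLocalRing B] [Algebra 𝒪 B],
    IsArtinianTestAlgebra 𝒪 B → ∀ q : A →ₐ[𝒪] B, IsLocalHom (q : A →+* B) → Function.Surjective q →
      ∀ b : Module.Basis (Fin 2) A ρ.V, X.P (mapRep (q : A →+* B) (matrixIn ρ b))

section Rep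

variable {A B : Type} [CommRing A] [IsLocalRing A] [Algebra 𝒪 A]
  [CommRing B] [IsLocalRing B] [Algebra 𝒪 B]

/-- A two dimensional representation has a basis indexed by `Fin 2`. -/
lemma exists_basis (ρ : GaloisRepAdic A) : Nonempty (Module.Basis (Fin 2) A ρ.V) :=
  ⟨Module.finBasisOfFinrankEq A ρ.V ρ.finrank_eq⟩

/-- The matrices of a base change are, up to conjugation, the images of the matrices. -/
lemma matConj_baseChangeAlong (φ : A →+* B) (hφ : IsLocalHom φ) (ρ : GaloisRepAdic A)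
    (b : Module.Basis (Fin 2) A ρ.V) (b' : Module.Basis (Fin 2) B (ρ.baseChangeAlong φ hφ).V) :
    MatConj (mapRep φ (matrixIn ρ b)) (matrixIn (ρ.baseChangeAlong φ hφ) b') := by
  obtain ⟨e₁⟩ := isEquiv_toRep_matrixIn ρ b
  obtain ⟨e₂⟩ := baseChangeAlong_toRep φ hφ (matrixIn ρ b) (matContinuous_matrixIn ρ b)
  have h := matConj_of_isEquiv (Pi.basisFun B (Fin 2)) b' (ρ := toRep (mapRep φ (matrixIn ρ b))
    ((matContinuous_matrixIn ρ b).map φ)) ⟨(e₂.symm.trans (e₁.baseChangeAlong φ hφ).symm)⟩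
  rwa [matrixIn_toRep] at h

/-- The condition on a representation is the property of its matrices in any basis, as the
property is invariant under conjugation. -/
lemma cond_iff (hA : IsArtinianTestAlgebra 𝒪 A) (ρ : GaloisRepAdic A)
    (b : Module.Basis (Fin 2) A ρ.V) : X.cond ρ ↔ X.P (matrixIn ρ b) := by
  constructor
  · intro h
    have h1 := h hA (AlgHom.id 𝒪 A) ⟨fun _ hx => hx⟩ Function.surjective_id b
    have e : mapRep ((AlgHom.id 𝒪 A : A →ₐ[𝒪] A) : A →+* A) (matrixIn ρ b) = matrixIn ρ b :=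
      MonoidHom.ext fun σ => by ext i j; rfl
    rwa [e] at h1
  · intro h B _ _ _ hB q _ _ b'
    exact X.map hA hB q (X.conj hA (matConj_of_isEquiv b b' ⟨.refl ρ⟩) h)

/-- The condition on the representation of a matrix representation is the property of the
latter. -/
lemma cond_toRep_iff (hA : IsArtinianTestAlgebra 𝒪 A) (M : MatRep A) (hM : MatContinuous A M) :
    X.cond (toRep M hM) ↔ X.P M := by
  rw [X.cond_iff hA _ (Pi.basisFun A (Fin 2)), matrixIn_toRep]

lemma P_baseChange (hB : IsArtinianTestAlgebra 𝒪 B) (φ : A →ₐ[𝒪] B)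
    (hφ : IsLocalHom (φ : A →+* B)) (ρ : GaloisRepAdic A) (b : Module.Basis (Fin 2) A ρ.V) :
    X.cond (ρ.baseChangeAlong (φ : A →+* B) hφ) ↔ X.P (mapRep (φ : A →+* B) (matrixIn ρ b)) := by
  obtain ⟨b'⟩ := exists_basis (ρ.baseChangeAlong (φ : A →+* B) hφ)
  rw [X.cond_iff hB _ b']
  have h := matConj_baseChangeAlong (φ : A →+* B) hφ ρ b b'
  exact ⟨X.conj hB h.symm, X.conj hB h⟩

end Rep

/-- **A natural property of matrices gives a deformation condition.** -/
theorem isDeformationCondition : IsDeformationCondition 𝒪 X.cond where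
  of_isEquiv A _ _ _ hA ρ ρ' h hρ := by
    obtain ⟨b⟩ := exists_basis ρ
    obtain ⟨b'⟩ := exists_basis ρ'
    exact (X.cond_iff hA ρ' b').mpr
      (X.conj hA (matConj_of_isEquiv b b' h) ((X.cond_iff hA ρ b).mp hρ))
  baseChangeAlong A B _ _ _ _ _ _ hA hB φ hφ ρ hρ := by
    obtain ⟨b⟩ := exists_basis ρ
    exact (X.P_baseChange hB φ hφ ρ b).mpr (X.map hA hB φ ((X.cond_iff hA ρ b).mp hρ))
  of_baseChangeAlong_injective A B _ _ _ _ _ _ hA hB φ hφ hinj ρ hρ := by
    obtain ⟨b⟩ := exists_basis ρ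
    have h := (X.P_baseChange hB φ hφ ρ b).mp hρ
    exact (X.cond_iff hA ρ b).mpr (X.reflect hA hB hB φ φ
      (fun x y e => hinj (congrArg Prod.fst e)) h h)
  of_fibreProduct A B C P _ _ _ _ _ _ _ _ _ _ _ _ hA hB _ hP _ _ pA pB hpA hpB _ hinj _
      ρ h1 h2 := by
    obtain ⟨b⟩ := exists_basis ρ
    exact (X.cond_iff hP ρ b).mpr (X.reflect hP hA hB pA pB hinj
      ((X.P_baseChange hA pA hpA ρ b).mp h1) ((X.P_baseChange hB pB hpB ρ b).mp h2))
  iff_forall_surjective A _ _ _ _ _ _ _ ρ := by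
    obtain ⟨b⟩ := exists_basis ρ
    constructor
    · intro h B _ _ _ hB q hq hs
      exact (X.P_baseChange hB q hq ρ b).mpr (h hB q hq hs b)
    · intro h B _ _ _ hB q hq hs b'
      exact (X.P_baseChange hB q hq ρ b').mp (h hB q hq hs)

end MatCond

section Elementary

/-- The determinant is a given character. -/
def detMatCond (c : GQ →* 𝒪) : MatCond 𝒪 where
  P A _ _ _ M := ∀ σ, (M σ).det = algebraMap 𝒪 A (c σ)
  conj _A _ _ _ _ M M' h hM σ := by
    obtain ⟨U, hU⟩ := h
    rw [hU, Matrix.det_units_conj, hM]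
  map _A B _ _ _ _ _ _ _ _ φ M hM σ := by
    rw [mapRep_apply, ← RingHom.mapMatrix_apply, ← RingHom.map_det, hM, RingHom.coe_coe,
      φ.commutes]
  reflect _C _A _B _ _ _ _ _ _ _ _ _ _ _ _ f g h M h1 h2 σ := by
    refine h (Prod.ext ?_ ?_)
    · show f _ = f _
      rw [f.commutes, ← h1 σ, mapRep_apply, ← RingHom.mapMatrix_apply, ← RingHom.map_det]
      rfl
    · show g _ = g _
      rw [g.commutes, ← h2 σ, mapRep_apply, ← RingHom.mapMatrix_apply, ← RingHom.map_det]
      rfl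

/-- Triviality on a set of elements. -/
def killMatCond (Z : Set GQ) : MatCond 𝒪 where
  P _A _ _ _ M := ∀ σ ∈ Z, M σ = 1
  conj _A _ _ _ _ M M' h hM σ hσ := by
    obtain ⟨U, hU⟩ := h
    rw [hU, hM σ hσ, mul_one, U.mul_inv]
  map _A B _ _ _ _ _ _ _ _ φ M hM σ hσ := by
    rw [mapRep_apply, hM σ hσ, Matrix.map_one _ (map_zero _) (map_one _)]
  reflect _C _A _B _ _ _ _ _ _ _ _ _ _ _ _ f g h M h1 h2 σ hσ := by
    ext i j
    refine h (Prod.ext ?_ ?_)
    · have := congrFun (congrFun (h1 σ hσ) i) j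
      simp only [mapRep_apply, Matrix.map_apply] at this
      refine this.trans ?_
      simp [Matrix.one_apply, apply_ite f]
    · have := congrFun (congrFun (h2 σ hσ) i) j
      simp only [mapRep_apply, Matrix.map_apply] at this
      refine this.trans ?_
      simp [Matrix.one_apply, apply_ite g]

/-- The union of the inertia groups over the primes outside a set. -/
def inertiaOutside (S : Finset ℕ) : Set GQ :=
  {σ | ∃ (q : ℕ) (P : ValuationSubring Qbar),
    q.Prime ∧ q ∉ S ∧ P.LiesOverPrime q ∧ σ ∈ P.inertiaSubgroupIn ℚ}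

/-- Unramified outside a set of primes. -/
def unrMatCond (S : Finset ℕ) : MatCond 𝒪 := killMatCond (inertiaOutside S)

end Elementary

end FermatAgent.RT
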