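import Mathlib
import Fermat.Prelude.Def_GaloisRep_LocalConditions
import Fermat.Agent.RT.Cond.Basic
import Fermat.Agent.ES.Tate.Cyclo

/-!
# Cyclotomic determinant

The cyclotomic character with values in a coefficient ring, and nilpotence of `p` in test algebras.
-/

set_option autoImplicit false

noncomputable section

open IsLocalRing GaloisRep FermatAgent.GaloisBasic

namespace FermatAgent.RT

variable (p : ℕ) [hp : Fact p.Prime]
variable {𝒪 : Type} [CommRing 𝒪] [IsLocalRing 𝒪] [Algebra ℤ_[p] 𝒪]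

/-- The cyclotomic character with values in the coefficient ring. -/
def cycloO (𝒪 : Type) [CommRing 𝒪] [Algebra ℤ_[p] 𝒪] : GQ →* 𝒪 :=
  (algebraMap ℤ_[p] 𝒪).toMonoidHom.comp (ES.padCyclo p)

omit [IsLocalRing 𝒪] in
/-- The cyclotomic character in `𝒪` is the image of the `p`-adic one. -/
lemma cycloO_apply (σ : GQ) : cycloO p 𝒪 σ = algebraMap ℤ_[p] 𝒪 (ES.padCyclo p σ) := rfl

omit [IsLocalRing 𝒪] in
/-- If `σ` raises the roots of unity of order `p ^ n` to the power `a`, its cyclotomic value is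
`a` modulo `p ^ n`. -/
lemma cycloO_congr {σ : GQ} {n a : ℕ}
    (h : ∀ μ : AlgebraicClosure ℚ, μ ^ p ^ n = 1 → σ μ = μ ^ a) :
    (p : 𝒪) ^ n ∣ cycloO p 𝒪 σ - a := by
  obtain ⟨ζ, hζ⟩ := ES.exists_primitive_qbar p n
  have h1 := ES.toZModPow_padCyclo_eq p hζ (h ζ hζ.pow_eq_one)
  obtain ⟨y, hy⟩ : (p : ℤ_[p]) ^ n ∣ ES.padCyclo p σ - a := by
    rw [← Ideal.mem_span_singleton, ← PadicInt.ker_toZModPow, RingHom.mem_ker, map_sub, h1,
      map_natCast, sub_self]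
  refine ⟨algebraMap ℤ_[p] 𝒪 y, ?_⟩
  rw [cycloO_apply, ← map_natCast (algebraMap ℤ_[p] 𝒪) a, ← map_sub, hy, map_mul, map_pow,
    map_natCast]

variable {A : Type} [CommRing A] [IsLocalRing A] [Algebra 𝒪 A]

omit hp [Algebra ℤ_[p] 𝒪] in
/-- `p` is nilpotent in test algebras. -/
lemma exists_pow_prime_eq_zero (hA : IsArtinianTestAlgebra 𝒪 A) (hpO : (p : 𝒪) ∈ maximalIdeal 𝒪) :
    ∃ n, (p : A) ^ n = 0 := by
  have := hA.isArtinian
  have := hA.isLocalHom
  obtain ⟨n, hn⟩ := exists_maximalIdeal_pow_eq_bot (A := A)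
  refine ⟨n, Ideal.mem_bot.mp (hn ▸ Ideal.pow_mem_pow ?_ n)⟩
  rw [← map_natCast (algebraMap 𝒪 A)]
  exact map_nonunit (algebraMap 𝒪 A) _ hpO

end FermatAgent.RT
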