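import Mathlib
import Fermat.Prelude.Def_GaloisRep_StrictOrdinary
import Fermat.Agent.RT.Cond.Basic

/-!
# The strictly ordinary condition by equations

At an inertia element on which the character is residually nontrivial the line is the image of an
idempotent, so the condition is given by equations between matrices.
-/

set_option autoImplicit false

noncomputable section

open IsLocalRing GaloisRep FermatAgent.GaloisBasic

namespace FermatAgent.RT

variable {𝒪 : Type} [CommRing 𝒪] [IsLocalRing 𝒪]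

section Equations

/-- A matrix expression natural in ring maps compatible with scalars and traces. -/
structure MatExpr (𝒪 : Type) [CommRing 𝒪] where
  /-- the expression -/
  E : ∀ ⦃A : Type⦄ [CommRing A] [Algebra 𝒪 A], MatRep A → Matrix (Fin 2) (Fin 2) A
  natural : ∀ ⦃A B : Type⦄ [CommRing A] [Algebra 𝒪 A] [CommRing B] [Algebra 𝒪 B]
    (φ : A →ₐ[𝒪] B) (Φ : Matrix (Fin 2) (Fin 2) A →ₐ[𝒪] Matrix (Fin 2) (Fin 2) B),
    (∀ x, (Φ x).trace = φ x.trace) → (∀ a : A, Φ (algebraMap A _ a) = algebraMap B _ (φ a)) →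
      ∀ (M : MatRep A) (N : MatRep B), (∀ σ, Φ (M σ) = N σ) → Φ (E M) = E N

/-- Conjugation as an algebra map. -/
def conjMat (𝒪 : Type) [CommRing 𝒪] {A : Type} [CommRing A] [Algebra 𝒪 A]
    (U : (Matrix (Fin 2) (Fin 2) A)ˣ) :
    Matrix (Fin 2) (Fin 2) A →ₐ[𝒪] Matrix (Fin 2) (Fin 2) A where
  toFun x := U.1 * x * (U⁻¹).1
  map_one' := by rw [mul_one, U.mul_inv]
  map_mul' x y := by simp only [mul_assoc]; rw [← mul_assoc (U⁻¹).1 U.1, U.inv_mul, one_mul]
  map_zero' := by rw [mul_zero, zero_mul]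
  map_add' x y := by rw [mul_add, add_mul]
  commutes' r := by rw [← Algebra.commutes, mul_assoc, U.mul_inv, mul_one]

variable {ι : Type} (e : ι → MatExpr 𝒪)

/-- The vanishing of a family of natural expressions. -/
def eqMatCond : MatCond 𝒪 where
  P A _ _ _ M := ∀ i, (e i).E M = 0
  conj A _ _ _ _ M M' h hM i := by
    obtain ⟨U, hU⟩ := h
    rw [← (e i).natural (AlgHom.id 𝒪 A) (conjMat 𝒪 U) (Matrix.trace_units_conj U)
      (fun a => by
        show U.1 * algebraMap A _ a * (U⁻¹).1 = _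
        rw [← Algebra.commutes, mul_assoc, U.mul_inv, mul_one]; rfl)
      M M' fun σ => (hU σ).symm, hM i, map_zero]
  map A B _ _ _ _ _ _ _ _ φ M hM i := by
    rw [← (e i).natural φ φ.mapMatrix (fun x => by simp [Matrix.trace_fin_two])
      (fun a => by ext r c; simp [Matrix.algebraMap_matrix_apply, apply_ite φ])
      M (mapRep (φ : A →+* B) M) fun σ => rfl, hM i, map_zero]
  reflect C A B _ _ _ _ _ _ _ _ _ _ _ _ f g h M h1 h2 i := by
    ext r c
    refine h (Prod.ext ?_ ?_)
    · have := congrFun (congrFun ((e i).natural f f.mapMatrix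
        (fun x => by simp [Matrix.trace_fin_two])
        (fun a => by ext r c; simp [Matrix.algebraMap_matrix_apply, apply_ite f])
        M (mapRep (f : C →+* A) M) fun σ => rfl) r) c
      rw [h1 i] at this
      simpa using this
    · have := congrFun (congrFun ((e i).natural g g.mapMatrix
        (fun x => by simp [Matrix.trace_fin_two])
        (fun a => by ext r c; simp [Matrix.algebraMap_matrix_apply, apply_ite g])
        M (mapRep (g : C →+* B) M) fun σ => rfl) r) c
      rw [h2 i] at this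
      simpa using this

end Equations

section Ordinary

variable (c : GQ →* 𝒪) (p : ℕ)

/-- A place over `p`, an inertia element and the inverse of the character minus one there. -/
structure OrdIndex where
  /-- the place over `p` -/
  P : ValuationSubring Qbar
  lies : P.LiesOverPrime p
  /-- the inertia element -/
  σ₀ : GQ
  mem : σ₀ ∈ P.inertiaSubgroupIn ℚ
  /-- the inverse of `c σ₀ - 1` -/
  u : 𝒪
  u_spec : u * (c σ₀ - 1) = 1

variable {c p}

/-- The projection to the line. -/
def ordProj (i : OrdIndex c p) {A : Type} [CommRing A] [Algebra 𝒪 A] (M : MatRep A) :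
    Matrix (Fin 2) (Fin 2) A := i.u • (M i.σ₀ - 1)

variable (c p)

/-- The equations of a strictly ordinary representation. -/
inductive OrdEq : Type
  | idem (i : OrdIndex c p) : OrdEq
  | rank (i : OrdIndex c p) : OrdEq
  | stable (i : OrdIndex c p) (σ : i.P.decompositionSubgroup ℚ) : OrdEq
  | quot (i : OrdIndex c p) (σ : i.P.inertiaSubgroupIn ℚ) : OrdEq
  | strict (i : OrdIndex c p) (σ : i.P.decompositionSubgroup ℚ) : OrdEq

variable {c p}

/-- The expression of an equation. -/
def OrdEq.expr : OrdEq c p → MatExpr 𝒪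
  | .idem i =>
    { E := fun _A _ _ M => ordProj i M * ordProj i M - ordProj i M
      natural := fun _A _B _ _ _ _ _ Φ _ _ M N hM => by
        have hp : Φ (ordProj i M) = ordProj i N := by simp [ordProj, hM]
        simp [hp] }
  | .rank i =>
    { E := fun A _ _ M => algebraMap A _ ((ordProj i M).trace - 1)
      natural := fun _A _B _ _ _ _ φ Φ htr hsc M N hM => by
        have hp : Φ (ordProj i M) = ordProj i N := by simp [ordProj, hM]
        rw [hsc, map_sub φ, map_one φ, ← htr, hp] }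
  | .stable i σ =>
    { E := fun _A _ _ M => (1 - ordProj i M) * M σ * ordProj i M
      natural := fun _A _B _ _ _ _ _ Φ _ _ M N hM => by
        have hp : Φ (ordProj i M) = ordProj i N := by simp [ordProj, hM]
        simp [hp, hM] }
  | .quot i σ =>
    { E := fun _A _ _ M => (1 - ordProj i M) * (M σ - 1)
      natural := fun _A _B _ _ _ _ _ Φ _ _ M N hM => by
        have hp : Φ (ordProj i M) = ordProj i N := by simp [ordProj, hM]
        simp [hp, hM] }
  | .strict i σ =>
    { E := fun A _ _ M => algebraMap A _ ((M σ * ordProj i M).trace -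
        algebraMap 𝒪 A (c σ) * (M σ * (1 - ordProj i M)).trace)
      natural := fun _A _B _ _ _ _ φ Φ htr hsc M N hM => by
        have hp : Φ (ordProj i M) = ordProj i N := by simp [ordProj, hM]
        rw [hsc, map_sub φ, map_mul φ, AlgHom.commutes φ, ← htr, ← htr, map_mul Φ, map_mul Φ,
          map_sub Φ, map_one Φ, hp, hM] }

variable (c p)

/-- The strictly ordinary condition. -/
def ordMatCond : MatCond 𝒪 := eqMatCond fun e : OrdEq c p => e.expr

variable {c p}

section Test

variable {A : Type} [CommRing A] [IsLocalRing A] [Algebra 𝒪 A]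

/-- The condition in terms of a basis adapted to the line. -/
theorem ordMatCond_of_adapted {M : MatRep A}
    (h : ∀ (P : ValuationSubring Qbar), P.LiesOverPrime p →
      ∃ U : (Matrix (Fin 2) (Fin 2) A)ˣ,
        (∀ σ ∈ P.decompositionSubgroup ℚ, (U.1 * M σ * (U⁻¹).1) 1 0 = 0 ∧
          (U.1 * M σ * (U⁻¹).1) 0 0 = algebraMap 𝒪 A (c σ) * (U.1 * M σ * (U⁻¹).1) 1 1) ∧
        ∀ σ ∈ P.inertiaSubgroupIn ℚ, (U.1 * M σ * (U⁻¹).1) 1 1 = 1)
    (hID : ∀ (P : ValuationSubring Qbar), P.inertiaSubgroupIn ℚ ≤ P.decompositionSubgroup ℚ) :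
    (ordMatCond c p).P M := by
  intro e
  have key : ∀ (i : OrdIndex c p) (U : (Matrix (Fin 2) (Fin 2) A)ˣ)
      (hD : ∀ σ ∈ i.P.decompositionSubgroup ℚ, (U.1 * M σ * (U⁻¹).1) 1 0 = 0 ∧
          (U.1 * M σ * (U⁻¹).1) 0 0 = algebraMap 𝒪 A (c σ) * (U.1 * M σ * (U⁻¹).1) 1 1)
      (hI : ∀ σ ∈ i.P.inertiaSubgroupIn ℚ, (U.1 * M σ * (U⁻¹).1) 1 1 = 1),
      conjMat 𝒪 U (ordProj i M) 0 0 = 1 ∧ conjMat 𝒪 U (ordProj i M) 1 0 = 0 ∧
        conjMat 𝒪 U (ordProj i M) 1 1 = 0 := by
    intro i U hD hI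
    obtain ⟨h10, h00⟩ := hD _ (hID _ i.mem)
    have h11 := hI _ i.mem
    rw [h11, mul_one] at h00
    have e : conjMat 𝒪 U (ordProj i M) = i.u • (U.1 * M i.σ₀ * (U⁻¹).1 - 1) := by
      rw [ordProj, map_smul, map_sub, map_one]; rfl
    rw [e]
    refine ⟨?_, ?_, ?_⟩
    · rw [Matrix.smul_apply, Matrix.sub_apply, Matrix.one_apply_eq, h00, Algebra.smul_def,
        ← map_one (algebraMap 𝒪 A), ← map_sub, ← map_mul, i.u_spec]
    · rw [Matrix.smul_apply, Matrix.sub_apply, h10, Matrix.one_apply_ne (by decide), sub_zero,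
        smul_zero]
    · rw [Matrix.smul_apply, Matrix.sub_apply, h11, Matrix.one_apply_eq, sub_self, smul_zero]
  have hinj : ∀ U : (Matrix (Fin 2) (Fin 2) A)ˣ, Function.Injective (conjMat 𝒪 U) :=
    fun U x y hxy => U.mul_right_inj.mp ((U⁻¹).mul_left_inj.mp hxy)
  cases e with
  | idem i =>
    obtain ⟨U, hD, hI⟩ := h i.P i.lies
    obtain ⟨a, b, d⟩ := key i U hD hI
    refine hinj U ?_
    show conjMat 𝒪 U (ordProj i M * ordProj i M - ordProj i M) = conjMat 𝒪 U 0
    rw [map_zero, map_sub, map_mul]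
    ext r s
    fin_cases r <;> fin_cases s <;> simp [Matrix.mul_apply, Fin.sum_univ_two, a, b, d]
  | rank i =>
    obtain ⟨U, hD, hI⟩ := h i.P i.lies
    obtain ⟨a, b, d⟩ := key i U hD hI
    show algebraMap A _ ((ordProj i M).trace - 1) = 0
    rw [← Matrix.trace_units_conj U (ordProj i M), show U.1 * ordProj i M * (U⁻¹).1 =
      conjMat 𝒪 U (ordProj i M) from rfl, Matrix.trace_fin_two, a, d, add_zero, sub_self, map_zero]
  | stable i σ =>
    obtain ⟨U, hD, hI⟩ := h i.P i.lies
    obtain ⟨a, b, d⟩ := key i U hD hI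
    obtain ⟨h10, -⟩ := hD _ σ.2
    refine hinj U ?_
    show conjMat 𝒪 U ((1 - ordProj i M) * M σ * ordProj i M) = conjMat 𝒪 U 0
    rw [map_zero, map_mul, map_mul, map_sub, map_one]
    have hc : conjMat 𝒪 U (M σ) 1 0 = 0 := h10
    ext r s
    fin_cases r <;> fin_cases s <;>
      simp [Matrix.mul_apply, Fin.sum_univ_two, a, b, d, hc, Matrix.one_apply]
  | quot i σ =>
    obtain ⟨U, hD, hI⟩ := h i.P i.lies
    obtain ⟨a, b, d⟩ := key i U hD hI
    obtain ⟨h10, -⟩ := hD _ (hID _ σ.2)
    refine hinj U ?_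
    show conjMat 𝒪 U ((1 - ordProj i M) * (M σ - 1)) = conjMat 𝒪 U 0
    rw [map_zero, map_mul, map_sub, map_sub, map_one]
    have hc : conjMat 𝒪 U (M σ) 1 0 = 0 := h10
    have hd : conjMat 𝒪 U (M σ) 1 1 = 1 := hI _ σ.2
    ext r s
    fin_cases r <;> fin_cases s <;>
      simp [Matrix.mul_apply, Fin.sum_univ_two, a, b, d, hc, hd, Matrix.one_apply]
  | strict i σ =>
    obtain ⟨U, hD, hI⟩ := h i.P i.lies
    obtain ⟨a, b, d⟩ := key i U hD hI
    obtain ⟨h10, h00⟩ := hD _ σ.2
    show algebraMap A _ ((M σ * ordProj i M).trace -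
      algebraMap 𝒪 A (c σ) * (M σ * (1 - ordProj i M)).trace) = 0
    have hc : conjMat 𝒪 U (M σ) 1 0 = 0 := h10
    have he : conjMat 𝒪 U (M σ) 0 0 = algebraMap 𝒪 A (c σ) * conjMat 𝒪 U (M σ) 1 1 := h00
    have htr : ∀ x, x.trace = (conjMat 𝒪 U x).trace := fun x => (Matrix.trace_units_conj U x).symm
    rw [htr (M σ * ordProj i M), htr (M σ * (1 - ordProj i M)), map_mul (conjMat 𝒪 U),
      map_mul (conjMat 𝒪 U), map_sub (conjMat 𝒪 U), map_one (conjMat 𝒪 U)]
    simp [Matrix.trace_fin_two, Matrix.mul_apply, Fin.sum_univ_two, a, b, d, hc, he,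
      Matrix.one_apply]

end Test

end Ordinary

end FermatAgent.RT
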