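import Mathlib
import Fermat.Agent.RT.CayleyHamilton

/-!
# Local conditions of a lift from those of a module with the same trace

A residually spanning lift and an action satisfying the Cayley–Hamilton identity of its trace
generate isomorphic algebras, and the lift embeds in a power of the module.
-/

set_option autoImplicit false

noncomputable section

open IsLocalRing FermatAgent.GaloisBasic

namespace FermatAgent.RT

section Morita

variable {G A : Type} [Group G] [CommRing A] [IsLocalRing A] {D : TraceDet G A}
  {E : Type} [Ring E] [Algebra A E] {ρ : G →* E}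

/-- **The algebra of the lift maps into that of the module.** -/
theorem exists_algHom_of_cayleyHamilton (hρ : D.IsCayleyHamilton ρ)
    (hfaith : Function.Injective (algebraMap A E))
    {half : A} {c g₀ h₀ : G} {N : A} (h2 : 2 * half = 1) (hc : c * c = 1) (htc : D.t c = 0)
    (hN : D.entX half c g₀ h₀ * N = 1) {M : G →* Matrix (Fin 2) (Fin 2) A}
    (hM : ∀ g, (M g).trace = D.t g)
    (hspan : Submodule.span (ResidueField A) (Set.range fun g => (M g).map (residue A)) = ⊤) :
    ∃ Ψ : Matrix (Fin 2) (Fin 2) A →ₐ[A] E, Function.Injective Ψ ∧ ∀ g, Ψ (M g) = ρ g := by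
  classical
  set LM := Finsupp.linearCombination A (M : G → Matrix (Fin 2) (Fin 2) A)
  set LE := Finsupp.linearCombination A (ρ : G → E)
  have hker : LinearMap.ker LM = LinearMap.ker LE := by
    ext f
    rw [LinearMap.mem_ker, LinearMap.mem_ker, Finsupp.linearCombination_apply,
      Finsupp.linearCombination_apply]
    exact (sum_smul_eq_zero_iff hρ hfaith h2 hc htc hN hM hspan f.support f id).symm
  have hsurj : Function.Surjective LM := by
    rw [← LinearMap.range_eq_top, Finsupp.range_linearCombination]
    exact span_range_eq_top_of_residual hspan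
  let ψ : Matrix (Fin 2) (Fin 2) A →ₗ[A] E :=
    ((LinearMap.ker LM).liftQ LE hker.le).comp (LM.quotKerEquivOfSurjective hsurj).symm.toLinearMap
  have hψ : ∀ f, ψ (LM f) = LE f := fun f => by
    simp [ψ, LM.quotKerEquivOfSurjective_symm_apply]
  have hg : ∀ g, ψ (M g) = ρ g := fun g => by
    have := hψ (Finsupp.single g 1)
    simpa [LM, LE] using this
  have hone : ψ 1 = 1 := by rw [← map_one M, hg, map_one]
  have hmul : ∀ x y, ψ (x * y) = ψ x * ψ y := by
    intro x y
    obtain ⟨f, rfl⟩ := hsurj x
    obtain ⟨f', rfl⟩ := hsurj y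
    induction f using Finsupp.induction_linear with
    | zero => simp
    | add f₁ f₂ h₁ h₂ => rw [map_add, add_mul, map_add, map_add, add_mul, h₁, h₂]
    | single g a =>
      induction f' using Finsupp.induction_linear with
      | zero => simp
      | add f₁ f₂ h₁ h₂ => rw [map_add, mul_add, map_add, map_add, mul_add, h₁, h₂]
      | single g' a' =>
        rw [show LM (Finsupp.single g a) = a • M g by simp [LM],
          show LM (Finsupp.single g' a') = a' • M g' by simp [LM], smul_mul_smul_comm, ← map_mul,
          map_smul, map_smul, map_smul, hg, hg, hg, map_mul, smul_mul_smul_comm]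
  refine ⟨AlgHom.ofLinearMap ψ hone hmul, fun x y hxy => ?_, hg⟩
  obtain ⟨f, rfl⟩ := hsurj x
  obtain ⟨f', rfl⟩ := hsurj y
  have h1 : LE f = LE f' := by rw [← hψ, ← hψ]; exact hxy
  rw [← sub_eq_zero, ← map_sub, ← LinearMap.mem_ker, hker, LinearMap.mem_ker, map_sub, h1, sub_self]

variable {W : Type} [AddCommGroup W] [Module A W]

/-- The column matrix of a vector. -/
def colMat : (Fin 2 → A) →ₗ[A] Matrix (Fin 2) (Fin 2) A where
  toFun v := Matrix.of fun i j => if j = 0 then v i else 0
  map_add' v w := by ext i j; fin_cases j <;> simp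
  map_smul' a v := by ext i j; fin_cases j <;> simp

omit [IsLocalRing A] in
/-- The lift embeds equivariantly in a power of the module. -/
theorem exists_embedding_of_algHom (Ψ : Matrix (Fin 2) (Fin 2) A →ₐ[A] Module.End A W)
    (hΨ : Function.Injective Ψ) {κ : Type} (w : κ → W) (hw : Submodule.span A (Set.range w) = ⊤) :
    ∃ ι : (Fin 2 → A) →ₗ[A] (κ → W), Function.Injective ι ∧
      ∀ (X : Matrix (Fin 2) (Fin 2) A) (v : Fin 2 → A) (k : κ),
        ι (X.mulVec v) k = Ψ X (ι v k) := by
  refine ⟨LinearMap.pi fun k =>
    (LinearMap.applyₗ (w k)).comp (Ψ.toLinearMap.comp colMat), ?_, fun X v k => ?_⟩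
  · refine (injective_iff_map_eq_zero _).mpr fun v hv => ?_
    have h0 : Ψ (colMat v) = 0 := by
      refine LinearMap.ext fun x => ?_
      have hx : x ∈ Submodule.span A (Set.range w) := hw ▸ Submodule.mem_top
      induction hx using Submodule.span_induction with
      | mem y hy => obtain ⟨k, rfl⟩ := hy; exact congrFun hv k
      | zero => simp
      | add y z _ _ hy hz => rw [map_add, hy, hz]; simp
      | smul a y _ hy => rw [map_smul, hy]; simp
    have h1 : colMat v = 0 := hΨ (h0.trans (map_zero Ψ).symm)
    funext i
    simpa [colMat] using congrFun (congrFun h1 i) 0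
  · show Ψ (colMat (X.mulVec v)) (w k) = Ψ X (Ψ (colMat v) (w k))
    rw [← Module.End.mul_apply, ← map_mul]
    congr 2
    ext i j
    fin_cases i <;> fin_cases j <;> simp [colMat, Matrix.mul_apply]

/-- An element leaving all traces unchanged acts trivially on a residually spanning lift. -/
theorem eq_one_of_trace_invariant {M : G →* Matrix (Fin 2) (Fin 2) A}
    (hspan : Submodule.span (ResidueField A) (Set.range fun g => (M g).map (residue A)) = ⊤)
    {τ : G} (h : ∀ g, (M (g * τ)).trace = (M g).trace) : M τ = 1 := by
  refine sub_eq_zero.mp (eq_zero_of_trace_mul_eq_zero hspan fun g => ?_)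
  rw [sub_mul, one_mul, Matrix.trace_sub, Matrix.trace_mul_comm, ← map_mul, h, sub_self]

end Morita

end FermatAgent.RT
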