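import Mathlib
import Fermat.Agent.RT.DiamondLevel
import Fermat.Agent.RT.Cond.Ordinary
import Fermat.Agent.RT.Cond.Transfer

/-!
# Local conditions on the specialised sides

A Galois action on the module of a diamond datum commuting with the Hecke action and satisfying
the Cayley–Hamilton identity passes to the specialised sides; its local properties hold for the
lifts over the specialised Hecke algebras.
-/

set_option autoImplicit false

noncomputable section

open IsLocalRing GaloisRep FermatAgent.GaloisBasic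

namespace FermatAgent.RT

variable {𝒪 : Type} [CommRing 𝒪] [IsDomain 𝒪] [IsDiscreteValuationRing 𝒪]
  [IsAdicComplete (maximalIdeal 𝒪) 𝒪] [Finite (ResidueField 𝒪)]

section Lift

variable {T₀ : Type} [CommRing T₀] [Algebra 𝒪 T₀] {B : Type} [CommRing B] [Algebra 𝒪 B]
  [Module.Finite 𝒪 B] [Nontrivial B] [Finite B] {s : ℕ}

omit [IsAdicComplete (maximalIdeal 𝒪) 𝒪] [Finite (ResidueField 𝒪)] [Finite B] in
/-- **The algebra of a lift over the image maps into the commutant.** -/
theorem EigenAction.exists_algHom_commutant (E : EigenAction (𝒪 := 𝒪) T₀ B s)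
    {rbar : MatRep (ResidueField 𝒪)}
    (hspan : Submodule.span (ResidueField 𝒪) (Set.range rbar) = ⊤) (td : TraceDet GQ T₀)
    (ρ : GQ →* E.Commutant)
    (hCH : ∀ g, (ρ g).1 + E.Φ (td.d g) * (ρ g⁻¹).1 = E.Φ (td.t g)) {half : 𝒪} (h2 : 2 * half = 1)
    {c : GQ} (hc : c * c = 1) (htc : E.Φ (td.t c) = 0)
    {M : MatRep E.Img} (hM : HasResidual rbar M)
    (htr : ∀ g, (M g).trace = Ideal.Quotient.mk _ (td.t g)) :
    (∃ Ψ : Matrix (Fin 2) (Fin 2) E.Img →ₐ[E.Img] E.Commutant,
      Function.Injective Ψ ∧ ∀ g, Ψ (M g) = ρ g) := by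
  set D := td.push (Ideal.Quotient.mk (RingHom.ker (E.Φ : T₀ →+* Matrix (Fin s) (Fin s) B)))
  have hsmul : ∀ (x : E.Img) (f : E.Commutant),
      ((x • f : E.Commutant) : Matrix (Fin s) (Fin s) B) =
        E.incl x * (f : Matrix (Fin s) (Fin s) B) :=
    fun x f => by rw [Algebra.smul_def]; rfl
  have hCH' : D.IsCayleyHamilton ρ := fun g => Subtype.ext (by
    show (ρ g).1 + ((D.d g • ρ g⁻¹ : E.Commutant) : Matrix (Fin s) (Fin s) B) = _
    rw [hsmul]
    exact hCH g)
  have hfaith : Function.Injective (algebraMap E.Img E.Commutant) := fun x y h =>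
    E.incl_injective (congrArg Subtype.val h)
  have h2' : 2 * algebraMap 𝒪 E.Img half = 1 := by
    rw [← map_ofNat (algebraMap 𝒪 E.Img) 2, ← map_mul, h2, map_one]
  have htc' : D.t c = 0 := E.incl_injective (by rw [map_zero]; exact htc)
  have hspan' : Submodule.span (ResidueField E.Img)
      (Set.range fun g => (M g).map (residue E.Img)) = ⊤ := by
    simpa only [show ∀ g, (M g).map (residue E.Img) = (rbar g).map (iotaRes E.Img) from
      fun g => DFunLike.congr_fun hM g] using span_map_eq_top hspan (iotaRes E.Img)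
  have hirr := fun v : Fin 2 → ResidueField E.Img => exists_mulVec_ne_smul_of_span hspan' (v := v)
  obtain ⟨g₀, h₀, N, hN⟩ := TraceDet.exists_isUnit_entX D h2' hc htc' (residue E.Img)
    (fun x hx => (residue_eq_zero_iff x).mpr hx) (mapRep (residue E.Img) M)
    (fun g => by
      show ((M g).map (residue E.Img)).trace = residue E.Img (D.t g)
      rw [show D.t g = (M g).trace from (htr g).symm]
      simp [Matrix.trace_fin_two])
    hirr
  exact exists_algHom_of_cayleyHamilton hCH' hfaith h2' hc htc' hN htr hspan'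

end Lift

variable [CharZero 𝒪] {κ : Type} [Fintype κ] [DecidableEq κ] {m : κ → ℕ} [∀ i, NeZero (m i)]
variable {D : DefProblem 𝒪} {p s : ℕ} [IsLocalRing (MonoidAlgebra 𝒪 (CycProd m))]

local notation "S" => MonoidAlgebra 𝒪 (CycProd m)

namespace DiamondDatum

/-- A Galois action on the module, commuting with the Hecke action, satisfying Cayley–Hamilton. -/
structure GalAct (H : DiamondDatum D m p s) where
  /-- the Galois action -/
  ρ : GQ →* Matrix (Fin s) (Fin s) (MonoidAlgebra 𝒪 (CycProd m))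
  comm : ∀ g x, Commute (ρ g) (H.Φ x)
  ch : ∀ g, ρ g + H.Φ (H.td.d g) * ρ g⁻¹ = H.Φ (H.td.t g)

variable {H : DiamondDatum D m p s} (A : H.AuxSet)

/-- The algebra of operators commuting with the Hecke action. -/
abbrev opAlg (H : DiamondDatum D m p s) : Subalgebra 𝒪 (Matrix (Fin s) (Fin s) S) :=
  Subalgebra.centralizer 𝒪 (Set.range H.Φ)

omit [IsAdicComplete (maximalIdeal 𝒪) 𝒪] [Finite (ResidueField 𝒪)] [CharZero 𝒪] [Fintype κ]
    [DecidableEq κ] in
lemma commute_incl {f : Matrix (Fin s) (Fin s) S} (hf : f ∈ opAlg H) (x : H.act.Img) :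
    H.act.incl x * f = f * H.act.incl x := by
  obtain ⟨a, rfl⟩ := Ideal.Quotient.mk_surjective x
  exact hf _ ⟨a, rfl⟩

/-- The operators commuting with the Hecke action commute with the new diamond action. -/
lemma opAlg_le : opAlg H ≤ Subalgebra.centralizer 𝒪 (Set.range (theta A)) := fun f hf => by
  rintro _ ⟨y, rfl⟩
  exact commute_incl hf (thetaImg A y)

section Side

variable {B : Type} [CommRing B] [Algebra 𝒪 B] [Finite B] [Nontrivial B]

/-- Operators on the specialised side, as matrices. -/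
def sideMat (φ : S →ₐ[𝒪] B) : opAlg H →ₐ[𝒪] Matrix (Fin s) (Fin s) B :=
  φ.mapMatrix.comp ((TwistMod.newMat (theta A) (coords_theta_surjective A)).comp
    (Subalgebra.inclusion (opAlg_le A)))

omit [Finite B] [Nontrivial B] in
lemma sideMat_Φ (φ : S →ₐ[𝒪] B) (x : H.T₀) (hx : H.Φ x ∈ opAlg H) :
    sideMat A φ ⟨H.Φ x, hx⟩ = (sideAction A φ).Φ x := rfl

omit [Finite B] [Nontrivial B] in
lemma sideMat_mem (φ : S →ₐ[𝒪] B) (f : opAlg H) :
    sideMat A φ f ∈ Subalgebra.centralizer 𝒪 (Set.range (sideAction A φ).Φ) := by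
  rintro _ ⟨x, rfl⟩
  have hx : H.Φ x ∈ opAlg H := by rintro _ ⟨y, rfl⟩; rw [← map_mul, ← map_mul, mul_comm]
  rw [← sideMat_Φ A φ x hx, ← map_mul, ← map_mul]
  exact congrArg _ (Subtype.ext (f.2 _ ⟨x, rfl⟩))

/-- Operators on the specialised side. -/
def sideOp (φ : S →ₐ[𝒪] B) : opAlg H →ₐ[𝒪] (sideAction A φ).Commutant :=
  (sideMat A φ).codRestrict _ (sideMat_mem A φ)

variable (G : GalAct H)

/-- The Galois action as operators. -/
def GalAct.op : GQ →* opAlg H where
  toFun g := ⟨G.ρ g, fun y hy => by obtain ⟨x, rfl⟩ := hy; exact (G.comm g x).eq.symm⟩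
  map_one' := Subtype.ext (map_one G.ρ)
  map_mul' g h := Subtype.ext (map_mul G.ρ g h)

/-- The Galois action on the specialised side. -/
def GalAct.side (φ : S →ₐ[𝒪] B) : GQ →* (sideAction A φ).Commutant :=
  ((sideOp A φ : opAlg H →ₐ[𝒪] _) : opAlg H →* _).comp G.op

omit [Finite B] [Nontrivial B] in
lemma GalAct.side_ch (φ : S →ₐ[𝒪] B) (g : GQ) :
    (G.side A φ g).1 + (sideAction A φ).Φ (H.td.d g) * (G.side A φ g⁻¹).1 =
      (sideAction A φ).Φ (H.td.t g) := by
  have hm : ∀ x, H.Φ x ∈ opAlg H := fun x => by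
    rintro _ ⟨y, rfl⟩; rw [← map_mul, ← map_mul, mul_comm]
  show sideMat A φ (G.op g) + _ * sideMat A φ (G.op g⁻¹) = _
  rw [← sideMat_Φ A φ _ (hm (H.td.d g)), ← sideMat_Φ A φ _ (hm (H.td.t g)), ← map_mul, ← map_add]
  exact congrArg _ (Subtype.ext (G.ch g))

variable {φ : MonoidAlgebra 𝒪 (CycProd m) →ₐ[𝒪] B} {M : MatRep (sideAction A φ).Img}
  (hres : HasResidual D.rbar M) (htr : ∀ g, (M g).trace = Ideal.Quotient.mk _ (H.td.t g))

include hres htr in
/-- The lift over a specialised side generates the same algebra as the Galois action. -/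
theorem GalAct.exists_algHom :
    ∃ Ψ : Matrix (Fin 2) (Fin 2) (sideAction A φ).Img →ₐ[(sideAction A φ).Img]
        (sideAction A φ).Commutant,
      Function.Injective Ψ ∧ ∀ g, Ψ (M g) = G.side A φ g :=
  (sideAction A φ).exists_algHom_commutant H.span H.td (G.side A φ) (G.side_ch A φ) H.two_half
    H.c_sq
    (by
      rw [sideAction_Φ, show H.mkT (H.td.t H.c) = 0 from
        H.act.incl_injective (by rw [incl_mkT, H.t_c, map_zero]), map_zero,
        Matrix.map_zero _ (map_zero φ)]) hres htr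

include G hres htr in
/-- What acts trivially is killed by the lift. -/
theorem GalAct.side_eq_one {τ : GQ} (hτ : G.ρ τ = 1) : M τ = 1 := by
  obtain ⟨Ψ, hΨ, hρ⟩ := G.exists_algHom A hres htr
  refine hΨ ?_
  rw [hρ, map_one]
  show sideOp A φ (G.op τ) = 1
  rw [show G.op τ = 1 from Subtype.ext hτ, map_one]

omit [Finite B] [Nontrivial B] in
/-- The determinant of the lift. -/
theorem side_det {c : GQ → 𝒪}
    (hd : ∀ g, H.Φ (H.td.d g) = algebraMap 𝒪 (Matrix (Fin s) (Fin s) S) (c g))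
    (hdet : ∀ g, (M g).det = Ideal.Quotient.mk _ (H.td.d g)) (g : GQ) :
    (M g).det = algebraMap 𝒪 _ (c g) := by
  have hT : H.mkT (H.td.d g) = algebraMap 𝒪 _ (c g) :=
    H.act.incl_injective (by rw [incl_mkT, hd, AlgHom.commutes])
  rw [hdet]
  show sideProj A φ (H.mkT (H.td.d g)) = _
  rw [hT, AlgHom.commutes]

/-- **Trivial action gives trivial universal matrices.** -/
theorem map_univMat_eq_one {c : GQ} (hc : c * c = 1) (htc : (D.univMat c).trace = 0)
    {k : ℕ} (hk : (p : B) ^ k = 0) (hcond : CondAt A φ) (G : GalAct H) {τ : GQ} (hτ : G.ρ τ = 1)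
    (f : D.UR →ₐ[𝒪] Matrix (Fin s) (Fin s) B)
    (hf : ∀ g, f (D.univMat g).trace = (sideAction A φ).Φ (H.td.t g)) (i j : Fin 2) :
    f (D.univMat τ i j - (1 : Matrix (Fin 2) (Fin 2) D.UR) i j) = 0 := by
  rw [sideUnivHom_apply A φ hk hcond hc htc _ 0 (fun fT hfT => ?_) f hf, map_zero]
  obtain ⟨hres, htr, -⟩ := sideUnivHom_lift A φ fT hfT
  rw [map_sub, show fT (D.univMat τ i j) = (1 : Matrix (Fin 2) (Fin 2) _) i j from
    congrFun (congrFun (G.side_eq_one A hres htr hτ) i) j, Matrix.one_apply, Matrix.one_apply,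
    apply_ite fT, map_one, map_zero, sub_self]

end Side

section Cond

variable {A} {r n : ℕ} {e : Fin r ≃ {j // j ∈ A.sel}}
  (hdepth : ∀ j : {j // j ∈ A.sel}, p ^ (n + 1) ≤ m j.1)

/-- **The local conditions on a specialised side.** -/
theorem GalAct.sideCond (G : GalAct H) (c : GQ →* 𝒪) (S₀ : Finset ℕ) (X : MatCond 𝒪)
    (hcond : D.cond = ((detMatCond c).inf ((unrMatCond S₀).inf X)).cond)
    (hd : ∀ g, H.Φ (H.td.d g) = algebraMap 𝒪 (Matrix (Fin s) (Fin s) S) (c g))
    (hunr : ∀ τ ∈ inertiaOutside S₀, G.ρ τ = 1) (z : κ → 𝒪) (hz : ∀ i, i ∉ A.sel → z i ^ m i = 1)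
    (hX : ∀ M : MatRep (sideAction A (spec A (e := e) hdepth z hz)).Img,
      HasResidual D.rbar M → (∀ g, (M g).trace = Ideal.Quotient.mk _ (H.td.t g)) →
      (∀ g, (M g).det = Ideal.Quotient.mk _ (H.td.d g)) → X.P M) :
    SideCond A e hdepth z hz := by
  intro M hM hres htr hdet
  rw [hcond]
  exact (MatCond.cond_toRep_iff _ (sideAction A _).test_img M hM).mpr
    ⟨side_det A hd hdet, fun τ hτ => G.side_eq_one A hres htr (hunr τ hτ), hX M hres htr hdet⟩

end Cond

end DiamondDatum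

end FermatAgent.RT
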