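import Mathlib
import Fermat.Agent.RT.HeckeModule
import Fermat.Agent.RT.Cond.Side
import Fermat.Agent.RT.Cond.Cyclo

/-!
# The Galois action of a localised Hecke module on its diamond datum

The representation on the localised module, in a basis, commutes with the Hecke action, has
cyclotomic determinant and is unramified away from the level and `p`.
-/

set_option autoImplicit false

noncomputable section

open IsLocalRing FermatAgent.GaloisBasic
open FermatAgent.HM MvPolynomial

namespace FermatAgent.RT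

private lemma commute_smul_endMat {R P W : Type} [CommRing R] [CommRing P] [Algebra R P]
    [AddCommGroup W] [Module P W] [Module R W] [IsScalarTower R P W] {s : ℕ}
    (b : Module.Basis (Fin s) R W) (c : R) (f : Module.End P W) (z : P) :
    Commute (c • endMat b f) (endMat b (algebraMap P (Module.End P W) z)) :=
  (Commute.map (show Commute f (algebraMap P _ z) from (Algebra.commutes z f).symm)
    (endMat b)).smul_left c

variable (p : ℕ) [hp : Fact p.Prime]
variable {𝒪 : Type} [CommRing 𝒪] [IsDomain 𝒪] [IsDiscreteValuationRing 𝒪] [Algebra ℤ_[p] 𝒪]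
  [IsAddTorsionFree 𝒪]
variable {κ : Type} [Fintype κ] {m : κ → ℕ} [∀ i, NeZero (m i)]
  [IsLocalRing (MonoidAlgebra 𝒪 (CycProd m))]
variable {N L M : ℕ} [NeZero M] [NeZero N] {ι : Type} {pr : ι → HPrime L}
variable {δ : (ZMod N)ˣ →* CycProd m} {hNM : N ∣ M}

local notation "S" => MonoidAlgebra 𝒪 (CycProd m)

variable (hδ : Function.Surjective δ) (hneg : δ (-1) = 1) (good : Set ι)
  (a : ι → (MonoidAlgebra 𝒪 (CycProd m))) (hpO : (p : 𝒪) ∈ maximalIdeal 𝒪)
  (hloc : IsLocalizedModule (resIdeal a).primeCompl (parToLoc 𝒪 δ hNM pr hδ (resIdeal a)))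
  (Sbad : Finset ℕ)
  (hgood : ∀ q : ℕ, q.Prime → q ∉ Sbad → ∃ i ∈ good, ((pr i).1.1 : ℕ) = q)
variable {s : ℕ} (b : Module.Basis (Fin s) (MonoidAlgebra 𝒪 (CycProd m))
  (HeckeLoc pr hNM (diamondRep 𝒪 δ) (resIdeal a)))

omit [IsDomain 𝒪] [IsDiscreteValuationRing 𝒪] in
lemma commute_modRho_modPhi (g : GQ) (x : modT₀ (δ := δ) (hNM := hNM) (pr := pr) good a) :
    Commute (modRho p hδ hneg a hloc b g) (modPhi good a b x) := by
  obtain ⟨P, rfl⟩ := Ideal.Quotient.mk_surjective x
  exact commute_smul_endMat b _ _ _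

variable (hm : ∀ i, ∃ k, m i = p ^ k) (hs : 0 < s) (hodd : Odd (Nat.card (CycProd m)))
    (D : DefProblem 𝒪) (hspan : Submodule.span (ResidueField 𝒪) (Set.range D.rbar) = ⊤)
    (half : 𝒪) (h2 : 2 * half = 1)
    (hdet : ∀ g, (D.rbar g).det = residue 𝒪 (algebraMap ℤ_[p] 𝒪 (ES.padCyclo p g)))
    (hres : ∀ i : good, ¬ ((pr i.1).1.1 : ℕ) ∣ M → (pr i.1).1.1 ≠ p →
      ∀ (P : ValuationSubring Qbar) (σ : GQ), P.LiesOverPrime (pr i.1).1.1 →
        P.IsFrobeniusAt σ (pr i.1).1.1 → (D.rbar σ).trace = resAug (a i.1))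

/-- The Galois action on the module. -/
def moduleGalAct : DiamondDatum.GalAct
    (moduleDatum p hδ hneg good a hpO hloc Sbad hgood b hm hs hodd D hspan half h2 hdet hres) where
  ρ := modRho p hδ hneg a hloc b
  comm g x := commute_modRho_modPhi p hδ hneg good a hloc b g x
  ch g := (modPhi_td_t p hδ hneg good a hpO hloc Sbad hgood b hodd g).symm

/-- The determinant is the cyclotomic character. -/
lemma modPhi_td_d_cyclo (hodd : Odd (Nat.card (CycProd m))) (g : GQ) :
    modPhi good a b ((modTd p hδ hneg good a hpO hloc Sbad hgood).d g) =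
      algebraMap 𝒪 (Matrix (Fin s) (Fin s) S) (cycloO p 𝒪 g) := by
  rw [modPhi_td_d p hδ hneg good a hpO hloc Sbad hgood b hodd,
    ← IsScalarTower.algebraMap_apply, cycloO_apply]

omit [IsDomain 𝒪] [IsDiscreteValuationRing 𝒪] in
/-- Unramified outside the level and `p`. -/
lemma modRho_eq_one_of_inertia {ℓ : ℕ} (hℓ : ℓ.Prime) (hℓM : ¬ ℓ ∣ M) (hℓp : ℓ ≠ p)
    {P : ValuationSubring Qbar} (hP : P.LiesOverPrime ℓ) {g : GQ}
    (hg : g ∈ P.inertiaSubgroupIn ℚ) : modRho p hδ hneg a hloc b g = 1 := by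
  rw [modRho_apply, galLoc_inertia p 𝒪 hδ hneg (resIdeal a) hloc hℓ hℓM hℓp hP hg, map_one]
  have hN : cycloN N g = 1 := by
    have hℓN : ¬ ℓ ∣ N := fun h => hℓM (h.trans hNM)
    refine cycloN_eq fun t ht => ?_
    rw [Mazur.inertia_fixes_rootsOfUnity hℓ hP hℓN (NeZero.ne N) hg ht, Units.val_one,
      ZMod.val_one_eq_one_mod, ← pow_eq_pow_mod _ ht, pow_one]
  rw [twistDet_apply, hN, map_one, map_one, inv_one, map_one, one_smul]

end FermatAgent.RT
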