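import Mathlib
import Fermat.Agent.RT.Cond.Basic
import Fermat.Agent.Flat.Closure

/-!
# The flat condition at a prime

A lift is flat at `p` when its module has coordinate systems at every place over `p`. Flatness
passes along ring maps to finite rings, and to the truncations of a flat representation.
-/

set_option autoImplicit false

noncomputable section

open IsLocalRing GaloisRep FermatAgent.GaloisBasic FermatAgent.Flat
open scoped Matrix

namespace FermatAgent.RT

section Act

variable {R : Type} [CommRing R] {n : Type} [Fintype n] [DecidableEq n]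

/-- The action on column vectors. -/
def matAct (M : GQ →* Matrix n n R) : GQ →* AddMonoid.End (n → R) where
  toFun g := ((M g).mulVecLin.toAddMonoidHom : (n → R) →+ (n → R))
  map_one' := by
    refine AddMonoidHom.ext fun v => ?_
    show M 1 *ᵥ v = v
    rw [map_one, Matrix.one_mulVec]
  map_mul' g h := by
    refine AddMonoidHom.ext fun v => ?_
    show M (g * h) *ᵥ v = M g *ᵥ (M h *ᵥ v)
    rw [map_mul, Matrix.mulVec_mulVec]

/-- The action on column vectors is multiplication by the matrix. -/
lemma matAct_apply (M : GQ →* Matrix n n R) (g : GQ) (v : n → R) :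
    matAct M g v = M g *ᵥ v := rfl

end Act

section Change

variable {p : ℕ} [Fact p.Prime] {A B : Type} [CommRing A] [CommRing B]

/-- **Flatness passes along ring maps to finite rings.** -/
theorem isFlatAct_mapRep [Finite B] (φ : A →+* B) {M : MatRep A}
    (h : IsFlatAct p (matAct M)) : IsFlatAct p (matAct (mapRep φ M)) := by
  have := Fintype.ofFinite B
  classical
  let ρι : GQ →* AddMonoid.End (B → Fin 2 → A) :=
    { toFun σ := AddMonoidHom.mk' (fun f b => M σ *ᵥ f b)
        fun f g => funext fun b => Matrix.mulVec_add _ _ _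
      map_one' := AddMonoidHom.ext fun f => funext fun b => by
        show M 1 *ᵥ f b = f b
        rw [map_one, Matrix.one_mulVec]
      map_mul' := fun σ τ => AddMonoidHom.ext fun f => funext fun b => by
        show M (σ * τ) *ᵥ f b = M σ *ᵥ (M τ *ᵥ f b)
        rw [map_mul, Matrix.mulVec_mulVec] }
  refine (h.pi ρι fun σ f b => rfl).quotient
    (AddMonoidHom.mk' (fun f => ∑ b, b • (φ ∘ f b)) fun f g => ?_) (fun v => ?_) fun σ f => ?_
  · rw [← Finset.sum_add_distrib]
    refine Finset.sum_congr rfl fun b _ => funext fun j => ?_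
    simp [mul_add]
  · refine ⟨fun b j => if b = v j then 1 else 0, funext fun j => ?_⟩
    simp [Finset.sum_apply, apply_ite φ]
  · show (∑ b, b • (φ ∘ (M σ *ᵥ f b))) = mapRep φ M σ *ᵥ ∑ b, b • (φ ∘ f b)
    rw [Matrix.mulVec_sum]
    refine Finset.sum_congr rfl fun b _ => ?_
    rw [Matrix.mulVec_smul, mapRep_apply]
    congr 1
    funext j
    exact RingHom.map_mulVec φ (M σ) (f b) j

variable [IsLocalRing A]

/-- **Truncations of a flat representation are flat actions.** -/
theorem isFlatAct_of_isFlatAt {ρ : GaloisRepAdic A} (h : ρ.IsFlatAt p)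
    (b : Module.Basis (Fin 2) A ρ.V) (I : Ideal A) [Finite (A ⧸ I)] :
    IsFlatAct p (matAct (mapRep (Ideal.Quotient.mk I) (matrixIn ρ b))) := by
  classical
  obtain ⟨H, i1, i2, h1, -, -, e, he, hσ⟩ := h.2 I inferInstance
  let N := I • (⊤ : Submodule A ρ.V)
  let ρI := levelEnd ρ I
  let co : ρ.V →+ (Fin 2 → A ⧸ I) := AddMonoidHom.mk'
    (fun v i => Ideal.Quotient.mk I (b.equivFun v i)) fun v w => funext fun i => by simp
  have hco : Function.Surjective co := fun f => by
    choose g hg using fun i => Ideal.Quotient.mk_surjective (f i)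
    refine ⟨b.equivFun.symm g, funext fun i => ?_⟩
    show Ideal.Quotient.mk I (b.equivFun (b.equivFun.symm g) i) = f i
    rw [LinearEquiv.apply_symm_apply, hg]
  have hker : ∀ v, v ∈ N ↔ co v = 0 := by
    intro v
    constructor
    · intro hv
      refine Submodule.smul_induction_on hv (fun r hr w _ => ?_) fun u w hu hw => by
        rw [map_add, hu, hw, add_zero]
      refine funext fun i => Ideal.Quotient.eq_zero_iff_mem.mpr ?_
      simp only [map_smul, Pi.smul_apply, smul_eq_mul]
      exact I.mul_mem_right _ hr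
    · intro hv
      rw [← b.sum_equivFun v]
      exact Submodule.sum_mem _ fun i _ => Submodule.smul_mem_smul
        (Ideal.Quotient.eq_zero_iff_mem.mp (congrFun hv i)) Submodule.mem_top
  have : Finite (ρ.V ⧸ N) := by
    refine Finite.of_injective (fun x : ρ.V ⧸ N => co x.out) fun x y hxy => ?_
    rw [← Submodule.Quotient.mk_out x, ← Submodule.Quotient.mk_out y, Submodule.Quotient.eq, hker,
      map_sub, sub_eq_zero]
    exact hxy
  have hmodel : IsFlatAct p ρI := isFlatAct_of_model (ρ := ρI) e he hσ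
  let π : (ρ.V ⧸ N) →+ (Fin 2 → A ⧸ I) :=
    QuotientAddGroup.lift N.toAddSubgroup co fun v hv => (hker v).mp hv
  refine hmodel.quotient π (fun f => ?_) fun σ x => ?_
  · obtain ⟨v, hv⟩ := hco f
    exact ⟨Submodule.Quotient.mk v, hv⟩
  · obtain ⟨v, rfl⟩ := Submodule.mkQ_surjective _ x
    show co (ρ.ρ σ v) = (mapRep (Ideal.Quotient.mk I) (matrixIn ρ b) σ) *ᵥ co v
    funext i
    show Ideal.Quotient.mk I (b.equivFun (ρ.ρ σ v) i) = _
    rw [repr_apply_eq_mulVec]
    exact RingHom.map_mulVec (Ideal.Quotient.mk I) (matrixIn ρ b σ) (b.equivFun v) i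

end Change

variable (p : ℕ) [Fact p.Prime] {𝒪 : Type} [CommRing 𝒪] [IsLocalRing 𝒪]

/-- The condition of being flat at `p`. -/
def flatMatCond [Finite (ResidueField 𝒪)] : MatCond 𝒪 where
  P _A _ _ _ M := IsFlatAct p (matAct M)
  conj A _ _ _ _ M M' h hM := by
    obtain ⟨U, hU⟩ := h
    refine hM.restrict (↑U⁻¹ : Matrix (Fin 2) (Fin 2) A).mulVecLin.toAddMonoidHom
      (fun v w e => ?_) fun σ v => ?_
    · have := congrArg (fun x => (U : Matrix (Fin 2) (Fin 2) A) *ᵥ x) e
      simpa only [LinearMap.toAddMonoidHom_coe, Matrix.mulVecLin_apply, Matrix.mulVec_mulVec,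
        U.mul_inv, Matrix.one_mulVec] using this
    · show ↑U⁻¹ *ᵥ (M' σ *ᵥ v) = M σ *ᵥ (↑U⁻¹ *ᵥ v)
      rw [hU, Matrix.mulVec_mulVec, Matrix.mulVec_mulVec, ← mul_assoc, ← mul_assoc, U.inv_mul,
        one_mul]
  map A B _ _ _ _ _ _ _ hB φ M hM := by
    have : IsLocalHom (algebraMap 𝒪 B) := hB.isLocalHom
    have : Finite B := finite_of_isArtinianTestAlgebra hB
    exact isFlatAct_mapRep (φ : A →+* B) hM
  reflect C A B _ _ _ _ _ _ _ _ _ _ _ _ f g h M h1 h2 := by
    let ρq : GQ →* AddMonoid.End ((Fin 2 → A) × (Fin 2 → B)) :=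
      { toFun σ := AddMonoidHom.prodMap (matAct (mapRep (f : C →+* A) M) σ)
          (matAct (mapRep (g : C →+* B) M) σ)
        map_one' := by rw [map_one, map_one]; rfl
        map_mul' := fun σ τ => by rw [map_mul, map_mul]; rfl }
    refine (h1.prod h2 ρq fun σ z => rfl).restrict
      (AddMonoidHom.mk' (fun v => ((f : C →+* A) ∘ v, (g : C →+* B) ∘ v)) fun v w => ?_)
      (fun v w e => ?_) fun σ v => ?_
    · refine Prod.ext (funext fun j => ?_) (funext fun j => ?_) <;> simp
    · exact funext fun j => h (Prod.ext (congrFun (congrArg Prod.fst e) j)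
        (congrFun (congrArg Prod.snd e) j))
    · exact Prod.ext (funext fun j => RingHom.map_mulVec (f : C →+* A) (M σ) v j)
        (funext fun j => RingHom.map_mulVec (g : C →+* B) (M σ) v j)

variable [Finite (ResidueField 𝒪)] {A : Type} [CommRing A] [IsLocalRing A] [Algebra 𝒪 A]

/-- The frozen flat condition follows. -/
theorem isFlatAt_of_flatMatCond (hA : IsArtinianTestAlgebra 𝒪 A) {ρ : GaloisRepAdic A}
    (h : (flatMatCond (𝒪 := 𝒪) p).cond ρ) : ρ.IsFlatAt p := by
  have : IsLocalHom (algebraMap 𝒪 A) := hA.isLocalHom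
  have : Finite A := finite_of_isArtinianTestAlgebra hA
  obtain ⟨b⟩ := MatCond.exists_basis ρ
  refine ⟨Finite.of_surjective _ residue_surjective, fun I _ => ?_⟩
  let ρI := levelEnd ρ I
  have hflat : IsFlatAct p ρI := ((MatCond.cond_iff _ hA ρ b).mp h).quotient
    (((Submodule.mkQ (I • (⊤ : Submodule A ρ.V))).comp b.equivFun.symm.toLinearMap).toAddMonoidHom)
    ((Submodule.mkQ_surjective _).comp b.equivFun.symm.surjective) fun σ v => by
      show Submodule.mkQ _ (b.equivFun.symm (matrixIn ρ b σ *ᵥ v)) =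
        ρ.levelAction I σ (Submodule.mkQ _ (b.equivFun.symm v))
      obtain ⟨x, rfl⟩ := b.equivFun.surjective v
      rw [← repr_apply_eq_mulVec, LinearEquiv.symm_apply_apply, LinearEquiv.symm_apply_apply]
      rfl
  obtain ⟨Av, hAv⟩ := exists_liesOverPrime (Fact.out : p.Prime)
  obtain ⟨L, Φ, hL, hLG, hΦ⟩ := hflat.2 Av hAv
  have : Finite (EndMod ρI) := hflat.1
  exact exists_model hAv hΦ

/-- The frozen flat condition gives the coordinate systems. -/
theorem flatMatCond_of_isFlatAt (hA : IsArtinianTestAlgebra 𝒪 A) {ρ : GaloisRepAdic A}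
    (h : ρ.IsFlatAt p) : (flatMatCond (𝒪 := 𝒪) p).cond ρ := by
  have : IsLocalHom (algebraMap 𝒪 A) := hA.isLocalHom
  have : Finite A := finite_of_isArtinianTestAlgebra hA
  obtain ⟨b⟩ := MatCond.exists_basis ρ
  rw [MatCond.cond_iff _ hA ρ b]
  have : Finite (A ⧸ (⊥ : Ideal A)) := Finite.of_equiv _ (RingEquiv.quotientBot A).symm.toEquiv
  have h0 := isFlatAct_mapRep (RingEquiv.quotientBot A).toRingHom
    (isFlatAct_of_isFlatAt h b ⊥)
  rwa [mapRep_mapRep, show ((RingEquiv.quotientBot A).toRingHom.comp (Ideal.Quotient.mk ⊥)) =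
    RingHom.id A from RingHom.ext fun _ => rfl,
    show mapRep (RingHom.id A) (matrixIn ρ b) = matrixIn ρ b from
      MonoidHom.ext fun _ => Matrix.map_id _] at h0

end FermatAgent.RT
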