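import Mathlib
import Fermat.Agent.RT.Cond.Side
import Fermat.Agent.RT.Cond.Flat

/-!
# Flatness of the specialised sides

A module with coordinate systems on its finite levels gives flat lifts on the specialised sides.
-/

set_option autoImplicit false

noncomputable section

open IsLocalRing GaloisRep FermatAgent.GaloisBasic FermatAgent.Flat
open scoped Matrix

namespace FermatAgent.RT

variable {𝒪 : Type} [CommRing 𝒪] [IsDomain 𝒪] [IsDiscreteValuationRing 𝒪]
  [IsAdicComplete (maximalIdeal 𝒪) 𝒪] [Finite (ResidueField 𝒪)]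

omit [IsAdicComplete (maximalIdeal 𝒪) 𝒪] [Finite (ResidueField 𝒪)] in
/-- Columns over the image embed in powers of the module. -/
theorem EigenAction.exists_columns {T₀ : Type} [CommRing T₀] [Algebra 𝒪 T₀] {B : Type} [CommRing B]
    [Algebra 𝒪 B] {s : ℕ}
    (E : EigenAction (𝒪 := 𝒪) T₀ B s)
    (Ψ : Matrix (Fin 2) (Fin 2) E.Img →ₐ[E.Img] E.Commutant) (hΨ : Function.Injective Ψ) :
    ∃ ι : (Fin 2 → E.Img) →+ ((Fin s → B) → Fin s → B), Function.Injective ι ∧
      ∀ X v k, ι (X *ᵥ v) k = (Ψ X : Matrix (Fin s) (Fin s) B) *ᵥ ι v k := by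
  let act : E.Img →+* Module.End B (Fin s → B) :=
    (Matrix.toLinAlgEquiv' : Matrix (Fin s) (Fin s) B ≃ₐ[B] _).toRingEquiv.toRingHom.comp
      (E.incl : E.Img →+* Matrix (Fin s) (Fin s) B)
  let : Module E.Img (Fin s → B) := Module.compHom _ act
  have hsmul : ∀ (x : E.Img) (w : Fin s → B), x • w = E.incl x *ᵥ w := fun x w => rfl
  let op : E.Commutant →ₐ[E.Img] Module.End E.Img (Fin s → B) :=
    { toFun := fun f =>
        { toFun := fun w => (f : Matrix (Fin s) (Fin s) B) *ᵥ w
          map_add' := fun w w' => Matrix.mulVec_add _ _ _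
          map_smul' := fun x w => by
            simp only [hsmul, RingHom.id_apply, Matrix.mulVec_mulVec]
            congr 1
            obtain ⟨a, rfl⟩ := Ideal.Quotient.mk_surjective x
            exact (f.2 _ ⟨a, rfl⟩).symm }
      map_one' := LinearMap.ext fun w => Matrix.one_mulVec w
      map_mul' := fun f g => LinearMap.ext fun w => (Matrix.mulVec_mulVec w _ _).symm
      map_zero' := LinearMap.ext fun w => Matrix.zero_mulVec w
      map_add' := fun f g => LinearMap.ext fun w => Matrix.add_mulVec _ _ w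
      commutes' := fun x => LinearMap.ext fun w => rfl }
  have hop : Function.Injective op := fun f g h => by
    refine Subtype.ext (Matrix.mulVec_injective (funext fun w => ?_))
    exact LinearMap.congr_fun h w
  obtain ⟨ι, hι, hX⟩ := exists_embedding_of_algHom (op.comp Ψ) (hop.comp hΨ)
    (id : (Fin s → B) → Fin s → B) (by rw [Set.range_id, Submodule.span_univ])
  exact ⟨ι.toAddMonoidHom, hι, fun X v k => hX X v k⟩

variable [CharZero 𝒪] {κ : Type} [Fintype κ] [DecidableEq κ] {m : κ → ℕ} [∀ i, NeZero (m i)]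
variable {D : DefProblem 𝒪} {p s : ℕ} [IsLocalRing (MonoidAlgebra 𝒪 (CycProd m))]

local notation "S" => MonoidAlgebra 𝒪 (CycProd m)

namespace DiamondDatum

variable {H : DiamondDatum D m p s} (A : H.AuxSet) {B : Type} [CommRing B] [Algebra 𝒪 B] [Finite B]
  [Nontrivial B]

/-- The reduction of the Galois action modulo a power of `p`. -/
def GalAct.level (G : GalAct H) (k : ℕ) :
    GQ →* Matrix (Fin s) (Fin s)
      (MonoidAlgebra 𝒪 (CycProd m) ⧸
        Ideal.span {((p : MonoidAlgebra 𝒪 (CycProd m)) ^ k)}) :=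
  ((Ideal.Quotient.mk
    (Ideal.span {((p : MonoidAlgebra 𝒪 (CycProd m)) ^ k)})).mapMatrix.toMonoidHom).comp
    G.ρ

/-- **A flat module gives flat lifts on the specialised sides.** -/
theorem GalAct.side_flat [Fact p.Prime] (G : GalAct H)
    (hflat : ∀ k, IsFlatAct p (matAct (G.level k)))
    {φ : MonoidAlgebra 𝒪 (CycProd m) →ₐ[𝒪] B} (hφ : Function.Surjective φ) {k : ℕ}
    (hk : (p : B) ^ k = 0) {M : MatRep (sideAction A φ).Img}
    (hres : HasResidual D.rbar M) (htr : ∀ g, (M g).trace = Ideal.Quotient.mk _ (H.td.t g)) :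
    (flatMatCond (𝒪 := 𝒪) p).P M := by
  have : Module.Finite 𝒪 B := Module.Finite.of_finite
  -- the specialised module is a quotient of a level
  set I := Ideal.span {((p : S) ^ k)}
  let e := TwistMod.coordsEquiv (theta A) (coords_theta_surjective A)
  let π₀ : (Fin s → S) →+ (Fin s → B) :=
    { toFun := fun v i => φ (e.symm (TwistMod.of (theta A) v) i)
      map_zero' := funext fun i => by simp
      map_add' := fun v w => funext fun i => by simp }
  have hπ₀ : Function.Surjective π₀ := fun w => by
    choose c hc using fun i => hφ (w i)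
    obtain ⟨v, hv⟩ := (TwistMod.of (theta A)).surjective (e c)
    refine ⟨v, funext fun i => ?_⟩
    show φ (e.symm (TwistMod.of (theta A) v) i) = w i
    rw [hv, LinearEquiv.symm_apply_apply, hc]
  have hker : ∀ v : Fin s → S, (∀ i, v i ∈ I) → π₀ v = 0 := fun v hv => by
    choose u hu using fun i => Ideal.mem_span_singleton'.mp (hv i)
    have e1 : v = (p ^ k) • u := funext fun i => by
      rw [Pi.smul_apply, ← hu i, nsmul_eq_mul, Nat.cast_pow, mul_comm]
    rw [e1, map_nsmul]
    funext i
    rw [Pi.smul_apply, nsmul_eq_mul, Nat.cast_pow, hk, zero_mul, Pi.zero_apply]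
  let sec : (Fin s → S ⧸ I) → (Fin s → S) := fun w i =>
    Function.surjInv Ideal.Quotient.mk_surjective (w i)
  have hsec : ∀ v, π₀ (sec fun i => Ideal.Quotient.mk I (v i)) = π₀ v := fun v => by
    rw [← sub_eq_zero, ← map_sub]
    refine hker _ fun i => Ideal.Quotient.eq.mp ?_
    exact Function.surjInv_eq _ _
  have hsurj : ∀ w : Fin s → S ⧸ I, ∃ v : Fin s → S, (fun i => Ideal.Quotient.mk I (v i)) = w :=
    fun w => ⟨sec w, funext fun i => Function.surjInv_eq _ _⟩
  let π : (Fin s → S ⧸ I) →+ (Fin s → B) := AddMonoidHom.mk' (fun w => π₀ (sec w)) fun w w' => by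
    obtain ⟨v, rfl⟩ := hsurj w
    obtain ⟨v', rfl⟩ := hsurj w'
    rw [show ((fun i => Ideal.Quotient.mk I (v i)) + fun i => Ideal.Quotient.mk I (v' i)) =
      fun i => Ideal.Quotient.mk I ((v + v') i) from funext fun i =>
        (map_add (Ideal.Quotient.mk I) (v i) (v' i)).symm,
      hsec, hsec, hsec, map_add]
  have hπ : Function.Surjective π := fun w => by
    obtain ⟨v, rfl⟩ := hπ₀ w
    exact ⟨_, hsec v⟩
  let side : GQ →* Matrix (Fin s) (Fin s) B :=
    (Subalgebra.centralizer 𝒪 (Set.range (sideAction A φ).Φ)).val.toRingHom.toMonoidHom.comp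
      (G.side A φ)
  have hside : IsFlatAct p (matAct side) := (hflat k).quotient π hπ fun g w => by
    obtain ⟨v, rfl⟩ := hsurj w
    have e1 : matAct (G.level k) g (fun i => Ideal.Quotient.mk I (v i)) =
        fun i => Ideal.Quotient.mk I ((G.ρ g *ᵥ v) i) :=
      funext fun i => (RingHom.map_mulVec (Ideal.Quotient.mk I) (G.ρ g) v i).symm
    show π₀ (sec (matAct (G.level k) g _)) = side g *ᵥ π₀ (sec _)
    rw [e1, hsec, hsec]
    set X : Subalgebra.centralizer 𝒪 (Set.range (theta A)) :=
      Subalgebra.inclusion (opAlg_le A) (G.op g)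
    have hc : e.symm (TwistMod.of (theta A) (G.ρ g *ᵥ v)) =
        TwistMod.newMat (theta A) (coords_theta_surjective A) X *ᵥ
          e.symm (TwistMod.of (theta A) v) := by
      apply e.injective
      rw [LinearEquiv.apply_symm_apply]
      show _ = TwistMod.coords (theta A) _
      rw [TwistMod.newMat_mulVec,
        show TwistMod.coords (theta A) (e.symm (TwistMod.of (theta A) v)) =
          TwistMod.of (theta A) v from e.apply_symm_apply _, TwistMod.opHom_of]
      rfl
    funext i
    show φ (e.symm (TwistMod.of (theta A) (G.ρ g *ᵥ v)) i) = _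
    rw [hc]
    exact RingHom.map_mulVec (φ : S →+* B) (TwistMod.newMat (theta A) (coords_theta_surjective A) X)
      (e.symm (TwistMod.of (theta A) v)) i
  -- the lift embeds in a power
  obtain ⟨Ψ, hΨ, hρ⟩ := G.exists_algHom A hres htr
  obtain ⟨ι, hι, hX⟩ := (sideAction A φ).exists_columns Ψ hΨ
  let ρι : GQ →* AddMonoid.End ((Fin s → B) → Fin s → B) :=
    { toFun g := AddMonoidHom.mk' (fun f k => side g *ᵥ f k)
        fun f f' => funext fun k => Matrix.mulVec_add _ _ _
      map_one' := AddMonoidHom.ext fun f => funext fun k => by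
        show side 1 *ᵥ f k = f k
        rw [map_one, Matrix.one_mulVec]
      map_mul' := fun g g' => AddMonoidHom.ext fun f => funext fun k => by
        show side (g * g') *ᵥ f k = side g *ᵥ (side g' *ᵥ f k)
        rw [map_mul, Matrix.mulVec_mulVec] }
  have : Finite (Fin s → B) := inferInstance
  exact (hside.pi ρι fun g f k => rfl).restrict ι hι fun g v => funext fun k => by
    show ι (M g *ᵥ v) k = side g *ᵥ ι v k
    rw [hX, hρ]
    rfl

end DiamondDatum

end FermatAgent.RT
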