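import Mathlib
import Fermat.Agent.RT.Cond.ModuleAct
import Fermat.Agent.RT.Cond.SideFlat
import Fermat.Agent.RT.GroupRing
import Fermat.Agent.Flat.Split.Quot

/-!
# The auxiliary Hecke modules are flat at a prime outside the level

Their levels modulo powers of `p` are quotients of the Galois module of parabolic homomorphisms,
which is flat at `p`.
-/

set_option autoImplicit false
set_option maxRecDepth 2000

noncomputable section

open IsLocalRing FermatAgent.GaloisBasic FermatAgent.Flat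
open FermatAgent.HM MvPolynomial
open ModularCurve ModularCurve.Period
open scoped Matrix

namespace FermatAgent.RT

variable (p : ℕ) [hp : Fact p.Prime]
variable {𝒪 : Type} [CommRing 𝒪] [IsDomain 𝒪] [IsDiscreteValuationRing 𝒪]
  [IsAdicComplete (maximalIdeal 𝒪) 𝒪] [Finite (ResidueField 𝒪)] [Algebra ℤ_[p] 𝒪]
  [IsAddTorsionFree 𝒪] [CharZero 𝒪]
variable {κ : Type} [Fintype κ] {m : κ → ℕ} [∀ i, NeZero (m i)]
  [IsLocalRing (MonoidAlgebra 𝒪 (CycProd m))]
variable {N L M : ℕ} [NeZero M] [NeZero N] {ι : Type} {pr : ι → HPrime L}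
variable {δ : (ZMod N)ˣ →* CycProd m} {hNM : N ∣ M}

local notation "S" => MonoidAlgebra 𝒪 (CycProd m)
local notation "W" a => HeckeLoc pr hNM (diamondRep 𝒪 δ :) (resIdeal a)

variable (hδ : Function.Surjective δ) (hneg : δ (-1) = 1)
  (a : ι → (MonoidAlgebra 𝒪 (CycProd m))) (hpO : (p : 𝒪) ∈ maximalIdeal 𝒪)
  (hloc : IsLocalizedModule (resIdeal a).primeCompl (parToLoc 𝒪 δ hNM pr hδ (resIdeal a)))
variable {s : ℕ} (b : Module.Basis (Fin s) (MonoidAlgebra 𝒪 (CycProd m))
  (HeckeLoc pr hNM (diamondRep 𝒪 δ :) (resIdeal a)))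

omit [CharZero 𝒪] [Finite (ResidueField 𝒪)] [IsAddTorsionFree 𝒪] [NeZero N] in
include hloc in
/-- The parabolic classes surject onto their localisation at the residual ideal. -/
theorem parToLoc_surjective : Function.Surjective (parToLoc 𝒪 δ hNM pr hδ (resIdeal a)) := by
  have := hloc
  have : IsNoetherianRing S := GroupRing.isNoetherianRing
  have : IsAdicComplete (maximalIdeal S) S := GroupRing.isAdicComplete
  have : Module.Finite S (DiamondH1 𝒪 δ hNM pr) :=
    H1.module_finite (resRep (actsIn_gamma0 (L := L) hNM) (diamondRep 𝒪 δ :))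
  have : IsNoetherian S (DiamondH1 𝒪 δ hNM pr) :=
    isNoetherian_of_isNoetherianRing_of_finite S _
  have : Module.Finite S (parSub 𝒪 δ hNM pr hδ) :=
    Module.IsNoetherian.finite S ((parSub 𝒪 δ hNM pr hδ).restrictScalars S)
  intro w
  have hsurj := localizedModule_mk_surjective (R := S) (H := parSub 𝒪 δ hNM pr hδ) (resIdeal a)
  obtain ⟨z, hz⟩ := hsurj
    ((IsLocalizedModule.iso (resIdeal a).primeCompl (parToLoc 𝒪 δ hNM pr hδ (resIdeal a))).symm w :)
  refine ⟨z, ?_⟩
  have h := congrArg (IsLocalizedModule.iso (resIdeal a).primeCompl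
    (parToLoc 𝒪 δ hNM pr hδ (resIdeal a))) hz
  rw [LinearEquiv.apply_symm_apply] at h
  rw [← h, LocalizedModule.mkLinearMap_apply, IsLocalizedModule.iso_mk_one]

/-- A parabolic class from its homomorphism. -/
def parOfHom (φ : parabolicHoms 𝒪 (gammaH δ hNM) 𝒪) : parSub 𝒪 δ hNM pr hδ :=
  ⟨(shapiroHecke 𝒪 δ hNM pr hδ).symm φ.1, by
    rw [mem_parSub, AddEquiv.apply_symm_apply]; exact φ.2⟩

section

omit [CharZero 𝒪] [IsDomain 𝒪] [IsDiscreteValuationRing 𝒪] [IsAdicComplete (maximalIdeal 𝒪) 𝒪]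
    [Finite (ResidueField 𝒪)] [NeZero N]

omit [IsAddTorsionFree 𝒪] [IsLocalRing S] in
/-- The class of a parabolic homomorphism has that homomorphism as Shapiro image. -/
lemma shapiro_parOfHom (φ : parabolicHoms 𝒪 (gammaH δ hNM) 𝒪) :
    shapiroHecke 𝒪 δ hNM pr hδ (parOfHom (pr := pr) hδ φ : DiamondH1 𝒪 δ hNM pr) = φ.1 :=
  AddEquiv.apply_symm_apply _ _

omit [IsAddTorsionFree 𝒪] [IsLocalRing S] in
/-- Passing from parabolic homomorphisms to classes is additive. -/
lemma parOfHom_add (φ φ' : parabolicHoms 𝒪 (gammaH δ hNM) 𝒪) :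
    parOfHom (pr := pr) hδ (φ + φ') = parOfHom hδ φ + parOfHom hδ φ' :=
  Subtype.ext (map_add (shapiroHecke 𝒪 δ hNM pr hδ).symm φ.1 φ'.1)

/-- The Galois action on the localised module is induced by the one on parabolic homomorphisms. -/
lemma galLoc_parOfHom (g : GQ) (φ : parabolicHoms 𝒪 (gammaH δ hNM) 𝒪) :
    galLoc p 𝒪 hδ hneg (resIdeal a) hloc g
        (parToLoc 𝒪 δ hNM pr hδ (resIdeal a) (parOfHom hδ φ)) =
      parToLoc 𝒪 δ hNM pr hδ (resIdeal a) (parOfHom hδ (galParO p hneg 𝒪 g φ)) := by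
  refine (parLocEnd_apply hδ (resIdeal a) hloc _ _).trans (congrArg _ (Subtype.ext
    ((shapiroHecke 𝒪 δ hNM pr hδ).injective ?_)))
  refine (parAlgHom_spec _ _).trans (Eq.trans ?_ (shapiro_parOfHom hδ _).symm)
  exact congrArg (fun ψ => (galParO p hneg 𝒪 g ψ).1) (Subtype.ext (shapiro_parOfHom hδ φ))

end

omit [CharZero 𝒪] in
/-- The level of the untwisted representation. -/
def galLevel (I : Ideal S) : GQ →* Matrix (Fin s) (Fin s) (S ⧸ I) :=
  ((Ideal.Quotient.mk I).mapMatrix.toMonoidHom).comp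
    ((endMat b).toRingHom.toMonoidHom.comp (galLoc p 𝒪 hδ hneg (resIdeal a) hloc))

omit hpO in
/-- **The untwisted module is flat at `p`.** -/
theorem isFlatAct_galLevel (hodd : Odd (Nat.card (CycProd m))) (hN : Squarefree N)
    (hM : ∀ q : ℕ, q.Prime → q ∣ N → ¬ q ^ 2 ∣ M) (hpM : ¬ p ∣ M) (k : ℕ) :
    IsFlatAct p (matAct (galLevel p hδ hneg a hloc b (Ideal.span {((p : S) ^ k)}))) := by
  classical
  set I := Ideal.span {((p : S) ^ k)}
  let mk := Ideal.Quotient.mk I
  let red : (W a) →+ (Fin s → S ⧸ I) :=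
    AddMonoidHom.mk' (fun w i => mk (b.repr w i)) fun w w' => funext fun i => by simp
  have hX : ∀ x : Fin s → S ⧸ I, p ^ k • x = 0 := fun x => funext fun i => by
    obtain ⟨y, hy⟩ := Ideal.Quotient.mk_surjective (x i)
    rw [Pi.smul_apply, ← hy, nsmul_eq_mul, Nat.cast_pow, ← map_natCast mk, ← map_pow, ← map_mul,
      Pi.zero_apply, Ideal.Quotient.eq_zero_iff_mem]
    exact Ideal.mem_span_singleton.mpr (dvd_mul_right _ _)
  let V := parabolicHoms ℤ_[p] (gammaH δ hNM) ℤ_[p]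
  let img : parabolicHoms 𝒪 (gammaH δ hNM) 𝒪 →+ (Fin s → S ⧸ I) :=
    AddMonoidHom.mk' (fun φ => red (parToLoc 𝒪 δ hNM pr hδ (resIdeal a) (parOfHom hδ φ)))
      fun φ φ' => (congrArg (fun z => red (parToLoc 𝒪 δ hNM pr hδ (resIdeal a) z))
        (parOfHom_add hδ φ φ')).trans ((congrArg red
          (map_add (parToLoc 𝒪 δ hNM pr hδ (resIdeal a)) _ _)).trans (map_add red _ _))
  have himg : ∀ g φ, img (galParO p hneg 𝒪 g φ) =
      galLevel p hδ hneg a hloc b I g *ᵥ img φ := fun g φ => by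
    show red _ = _
    rw [← galLoc_parOfHom p hδ hneg a hloc g φ]
    funext i
    refine Eq.trans ?_ (RingHom.map_mulVec mk (endMat b (galLoc p 𝒪 hδ hneg (resIdeal a) hloc g))
      (b.repr (parToLoc 𝒪 δ hNM pr hδ (resIdeal a) (parOfHom hδ φ))) i)
    show mk _ = mk _
    congr 1
    exact (congrFun (LinearMap.toMatrix_mulVec_repr b b
      ((galLoc p 𝒪 hδ hneg (resIdeal a) hloc g).restrictScalars S) _) i).symm
  -- finitely many coefficients
  set J := Ideal.span {((p : 𝒪) ^ k)}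
  have : Finite (𝒪 ⧸ J) := by
    have hJ : J ≠ (⊥ : Ideal 𝒪) := fun h => pow_ne_zero k
      (Nat.cast_ne_zero.mpr hp.out.ne_zero : (p : 𝒪) ≠ 0) (Ideal.span_singleton_eq_bot.mp h)
    obtain ⟨e, he⟩ := (IsDiscreteValuationRing.ideal_eq_span_pow_irreducible hJ
      (IsDiscreteValuationRing.exists_irreducible 𝒪).choose_spec)
    have h1 : J = maximalIdeal 𝒪 ^ e := by
      rw [he, (IsDiscreteValuationRing.exists_irreducible 𝒪).choose_spec.maximalIdeal_eq,
        Ideal.span_singleton_pow]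
    rw [h1]
    have : Finite (𝒪 ⧸ maximalIdeal 𝒪) := ‹Finite (ResidueField 𝒪)›
    exact Ideal.finite_quotient_pow (IsNoetherian.noetherian _) e
  let rep : 𝒪 ⧸ J → 𝒪 := Function.surjInv Ideal.Quotient.mk_surjective
  have hrep : ∀ (c : 𝒪) (φ : parabolicHoms 𝒪 (gammaH δ hNM) 𝒪),
      img (c • φ) = img (rep (Ideal.Quotient.mk J c) • φ) := fun c φ => by
    obtain ⟨y, hy⟩ := Ideal.mem_span_singleton.mp (Ideal.Quotient.eq.mp
      (Function.surjInv_eq Ideal.Quotient.mk_surjective (Ideal.Quotient.mk J c)).symm)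
    have e : c = rep (Ideal.Quotient.mk J c) + (p : 𝒪) ^ k * y := eq_add_of_sub_eq' hy
    have e2 : c • φ = rep (Ideal.Quotient.mk J c) • φ + p ^ k • (y • φ) :=
      (congrArg (· • φ) e).trans ((add_smul _ _ _).trans (congrArg _ ((mul_smul _ _ _).trans
        ((congrArg (· • (y • φ)) (Nat.cast_pow p k).symm).trans (Nat.cast_smul_eq_nsmul 𝒪 _ _)))))
    exact (congrArg img e2).trans ((map_add img _ _).trans
      ((congrArg _ ((map_nsmul img _ _).trans (hX _))).trans (add_zero _)))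
  have : Fintype (𝒪 ⧸ J) := Fintype.ofFinite _
  let tot : (𝒪 ⧸ J → V) →+ (Fin s → S ⧸ I) :=
    AddMonoidHom.mk' (fun v => ∑ c, img (rep c • pushParO (v c))) fun v v' => by
      rw [← Finset.sum_add_distrib]
      refine Finset.sum_congr rfl fun c _ => ?_
      refine ((congrArg (fun q => img (rep c • q)) ?_).trans
        (congrArg img (smul_add _ _ _))).trans (map_add img _ _)
      exact Subtype.ext (AddMonoidHom.ext fun x => map_add (algebraMap ℤ_[p] 𝒪) _ _)
  refine Split.isFlatAct_of_parHoms hneg hN hδ hodd hM hpM hX tot (fun x => ?_) fun g v => ?_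
  · obtain ⟨u, hu⟩ :=
      Function.Surjective.piMap (fun _ : Fin s => Ideal.Quotient.mk_surjective (I := I)) x
    obtain ⟨z, hz⟩ := parToLoc_surjective hδ a hloc (b.equivFun.symm u)
    let φ : parabolicHoms 𝒪 (gammaH δ hNM) 𝒪 := ⟨shapiroHecke 𝒪 δ hNM pr hδ z.1, z.2⟩
    have hx : img φ = x := by
      show red (parToLoc 𝒪 δ hNM pr hδ (resIdeal a) (parOfHom hδ φ)) = x
      rw [show parOfHom hδ φ = z from Subtype.ext (AddEquiv.symm_apply_apply _ _), hz]
      funext i
      show mk (b.equivFun (b.equivFun.symm u) i) = x i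
      rw [LinearEquiv.apply_symm_apply, ← hu]
      rfl
    refine ⟨∑ j, Pi.single (Ideal.Quotient.mk J
        (φ.1 (Additive.ofMul (Period.parElt (gammaH δ hNM) j))))
      ((Period.parabolicCoords (gammaH δ hNM) ℤ_[p] ℤ_[p]).symm (Pi.single j 1)), ?_⟩
    rw [map_sum, ← hx]
    conv_rhs => rw [eq_sum_pushParO (R := ℤ_[p]) φ, map_sum]
    refine Finset.sum_congr rfl fun j _ => ?_
    rw [hrep]
    show ∑ c, _ = _
    refine (Finset.sum_eq_single_of_mem _ (Finset.mem_univ _) fun c _ hc => by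
      rw [Pi.single_eq_of_ne hc]
      have : (pushParO (0 : V) : parabolicHoms 𝒪 (gammaH δ hNM) 𝒪) = 0 :=
        Subtype.ext (AddMonoidHom.ext fun x => by simp [pushParO, pushPar])
      exact (congrArg (fun q => img (rep c • q)) this).trans
        ((congrArg img (smul_zero _)).trans (map_zero img))).trans ?_
    exact congrArg (fun q => img (rep _ • pushParO q)) (Pi.single_eq_same _ _)
  · show galLevel p hδ hneg a hloc b I g *ᵥ ∑ c, img _ = ∑ c, img _
    rw [Matrix.mulVec_sum]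
    refine Finset.sum_congr rfl fun c _ => ?_
    rw [← himg, map_smul, galParO, MonoidHom.comp_apply]
    congr 2
    exact extPar_pushParO _ _

/-- **The auxiliary module is flat at `p`.** -/
theorem isFlatAct_modRho_level (hodd : Odd (Nat.card (CycProd m))) (hN : Squarefree N)
    (hM : ∀ q : ℕ, q.Prime → q ∣ N → ¬ q ^ 2 ∣ M) (hpM : ¬ p ∣ M) (k : ℕ) :
    IsFlatAct p (matAct (((Ideal.Quotient.mk
      (Ideal.span {((p : S) ^ k)})).mapMatrix.toMonoidHom).comp (modRho p hδ hneg a hloc b))) := by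
  set I := Ideal.span {((p : S) ^ k)}
  let t : GQ →* S ⧸ I := (Ideal.Quotient.mk I).toMonoidHom.comp (twistDet δ)
  let θ : GQ →* AddMonoid.End (Fin s → S ⧸ I) :=
    { toFun g := AddMonoidHom.mk' (fun v => t g • v) fun v v' => smul_add _ _ _
      map_one' := AddMonoidHom.ext fun v => by
        show t 1 • v = v
        rw [map_one, one_smul]
      map_mul' g h := AddMonoidHom.ext fun v => by
        show t (g * h) • v = t g • t h • v
        rw [map_mul, smul_smul] }
  have hθ : ∀ g, cycloN N g = 1 → θ g = 1 := fun g hg => AddMonoidHom.ext fun v => by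
    show t g • v = v
    have : t g = 1 := by
      show Ideal.Quotient.mk I (twistDet δ g) = 1
      rw [twistDet_apply, hg, map_one, map_one, inv_one, map_one, map_one]
    rw [this, one_smul]
  refine (isFlatAct_galLevel p hδ hneg a hloc b hodd hN hM hpM k).twist θ (fun σ v => ?_)
    (fun σ τ v => ?_) ?_ fun A hA σ hσ =>
      hθ σ (Split.cycloN_inertia p (fun h => hpM (h.trans hNM)) hA hσ)
  · show (modRho p hδ hneg a hloc b σ).map (Ideal.Quotient.mk I) *ᵥ v =
      t σ • ((endMat b (galLoc p 𝒪 hδ hneg (resIdeal a) hloc σ)).map (Ideal.Quotient.mk I) *ᵥ v)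
    refine Eq.trans ?_ (Matrix.smul_mulVec _ _ _)
    refine congrArg (fun A : Matrix (Fin s) (Fin s) (S ⧸ I) => A *ᵥ v) ?_
    refine (congrArg (fun A => Matrix.map A (Ideal.Quotient.mk I))
      (modRho_apply p hδ hneg a hloc b σ)).trans ?_
    exact Matrix.ext fun i j => map_mul (Ideal.Quotient.mk I) _ _
  · show t σ • (galLevel p hδ hneg a hloc b I τ *ᵥ v) = galLevel p hδ hneg a hloc b I τ *ᵥ (t σ • v)
    exact (Matrix.mulVec_smul _ _ _).symm
  · obtain ⟨L₀, hL₀, h⟩ := Split.exists_level_cycloN_fix N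
    exact ⟨L₀, hL₀, fun σ hσ => hθ σ (h σ hσ)⟩

section Act

variable (good : Set ι) (Sbad : Finset ℕ)
  (hgood : ∀ q : ℕ, q.Prime → q ∉ Sbad → ∃ i ∈ good, ((pr i).1.1 : ℕ) = q)
variable (hm : ∀ i, ∃ k, m i = p ^ k) (hs : 0 < s) (hodd : Odd (Nat.card (CycProd m)))
    (D : DefProblem 𝒪) (hspan : Submodule.span (ResidueField 𝒪) (Set.range D.rbar) = ⊤)
    (half : 𝒪) (h2 : 2 * half = 1)
    (hdet : ∀ g, (D.rbar g).det = residue 𝒪 (algebraMap ℤ_[p] 𝒪 (ES.padCyclo p g)))
    (hres : ∀ i : good, ¬ ((pr i.1).1.1 : ℕ) ∣ M → (pr i.1).1.1 ≠ p →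
      ∀ (P : ValuationSubring Qbar) (σ : GQ), P.LiesOverPrime (pr i.1).1.1 →
        P.IsFrobeniusAt σ (pr i.1).1.1 → (D.rbar σ).trace = resAug (a i.1))

/-- The hypothesis of `GalAct.side_flat`. -/
theorem moduleGalAct_flat (hN : Squarefree N) (hM : ∀ q : ℕ, q.Prime → q ∣ N → ¬ q ^ 2 ∣ M)
    (hpM : ¬ p ∣ M) (k : ℕ) :
    IsFlatAct p (matAct ((moduleGalAct p hδ hneg good a hpO hloc Sbad hgood b hm hs hodd D hspan
      half h2 hdet hres).level k)) :=
  isFlatAct_modRho_level p hδ hneg a hloc b hodd hN hM hpM k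

end Act

end FermatAgent.RT
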