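import Mathlib
import Fermat.Agent.RT.Framed
import Fermat.Agent.GaloisBasic.Universal

/-!
# Tangent functionals as cocycles

A functional on the relative cotangent space of a lift gives a lift to dual numbers, whose
derivative is a cocycle of the adjoint representation.
-/

set_option autoImplicit false

noncomputable section

open IsLocalRing GaloisRep FermatAgent.GaloisBasic
open scoped Matrix

namespace FermatAgent.RT

variable {𝒪 : Type} [CommRing 𝒪] [IsLocalRing 𝒪]

attribute [local instance] dualAlgebra

section Derivation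

variable {R : Type} [CommRing R] [IsLocalRing R] [Algebra 𝒪 R] [IsLocalHom (algebraMap 𝒪 R)]
  (hs : Function.Surjective (residue R ∘ algebraMap 𝒪 R)) {ϖ : 𝒪}
  (hϖ : maximalIdeal 𝒪 = Ideal.span {ϖ})
  (f : Module.Dual (ResidueField R) (RelCot R (algebraMap 𝒪 R ϖ)))

/-- The values in the residue field of the base. -/
def toBaseRes : ResidueField R →+* ResidueField 𝒪 :=
  ((RingEquiv.ofBijective _ (iotaRes_bijective hs)).symm : ResidueField R →+* ResidueField 𝒪)

/-- The comparison of residue fields takes the class of `x` to its residual value. -/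
lemma toBaseRes_residue (x : R) : toBaseRes hs (residue R x) = resK hs x := rfl

/-- The comparison of the residue field of `R` with that of `𝒪` is injective. -/
lemma toBaseRes_injective : Function.Injective (toBaseRes hs) :=
  (RingEquiv.ofBijective _ (iotaRes_bijective hs)).symm.injective

/-- The comparison is inverse to the embedding of the residue field of `𝒪`. -/
lemma toBaseRes_iotaRes (x : ResidueField 𝒪) : toBaseRes hs (iotaRes R x) = x :=
  (RingEquiv.ofBijective _ (iotaRes_bijective hs)).symm_apply_apply x

/-- A lift of the residual value. -/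
def resLift (x : R) : 𝒪 := Function.surjInv residue_surjective (resK hs x)

lemma residue_resLift (x : R) : residue 𝒪 (resLift hs x) = resK hs x :=
  Function.surjInv_eq _ _

include hs in
/-- An element differs from a constant with the same residual value by a non-unit. -/
lemma sub_algebraMap_mem {x : R} {o : 𝒪} (h : residue 𝒪 o = resK hs x) :
    x - algebraMap 𝒪 R o ∈ maximalIdeal R := by
  rw [← residue_eq_zero_iff, map_sub, sub_eq_zero]
  refine (toBaseRes_injective hs) ?_
  rw [toBaseRes_residue, ← h, ← ResidueField.map_residue]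
  exact (toBaseRes_iotaRes hs _).symm

/-- The derivative along a functional. -/
def tanDer (x : R) : ResidueField 𝒪 :=
  toBaseRes hs (f (cotClass _ (x - algebraMap 𝒪 R (resLift hs x))))

include hϖ in
lemma cotClass_algebraMap {o : 𝒪} (ho : o ∈ maximalIdeal 𝒪) :
    cotClass (algebraMap 𝒪 R ϖ) (algebraMap 𝒪 R o) = 0 := by
  rw [hϖ, Ideal.mem_span_singleton'] at ho
  obtain ⟨a, rfl⟩ := ho
  have hm : algebraMap 𝒪 R ϖ ∈ maximalIdeal R :=
    map_nonunit (algebraMap 𝒪 R) ϖ (hϖ ▸ Ideal.subset_span rfl)
  rw [map_mul, cotClass_mul _ _ hm, cotClass_self _ hm, smul_zero]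

include hϖ in
/-- The derivation of a functional is its value on the class of `x - o` for any constant `o`
with the residual value of `x`. -/
lemma tanDer_eq {x : R} {o : 𝒪} (h : residue 𝒪 o = resK hs x) :
    tanDer hs f x = toBaseRes hs (f (cotClass _ (x - algebraMap 𝒪 R o))) := by
  have hd : resLift hs x - o ∈ maximalIdeal 𝒪 := by
    rw [← residue_eq_zero_iff, map_sub, residue_resLift, h, sub_self]
  rw [tanDer, show x - algebraMap 𝒪 R o =
    (x - algebraMap 𝒪 R (resLift hs x)) + algebraMap 𝒪 R (resLift hs x - o) by rw [map_sub]; ring,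
    cotClass_add _ (sub_algebraMap_mem hs (residue_resLift hs x))
      (map_nonunit (algebraMap 𝒪 R) _ hd), cotClass_algebraMap hϖ hd, add_zero]

include hϖ in
/-- The derivation of a tangent vector kills constants. -/
lemma tanDer_algebraMap (o : 𝒪) : tanDer hs f (algebraMap 𝒪 R o) = 0 := by
  rw [tanDer_eq hs hϖ f (o := o) (by rw [AlgHom.commutes]; rfl), sub_self, cotClass_zero, map_zero,
    map_zero]

include hϖ in
/-- The derivation of a tangent vector is additive. -/
lemma tanDer_add (x y : R) : tanDer hs f (x + y) = tanDer hs f x + tanDer hs f y := by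
  rw [tanDer_eq hs hϖ f (o := resLift hs x + resLift hs y)
    (by rw [map_add, map_add, residue_resLift, residue_resLift]),
    show x + y - algebraMap 𝒪 R (resLift hs x + resLift hs y) =
      (x - algebraMap 𝒪 R (resLift hs x)) + (y - algebraMap 𝒪 R (resLift hs y)) by
        rw [map_add]; ring,
    cotClass_add _ (sub_algebraMap_mem hs (residue_resLift hs x))
      (sub_algebraMap_mem hs (residue_resLift hs y)), map_add, map_add]
  rfl

include hϖ in
/-- The derivation of a tangent vector satisfies the Leibniz rule over the residual values. -/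
lemma tanDer_mul (x y : R) :
    tanDer hs f (x * y) = resK hs x * tanDer hs f y + tanDer hs f x * resK hs y := by
  set a := resLift hs x
  set b := resLift hs y
  have hx := sub_algebraMap_mem hs (residue_resLift hs x)
  have hy := sub_algebraMap_mem hs (residue_resLift hs y)
  have e : x * y - algebraMap 𝒪 R (a * b) = algebraMap 𝒪 R a * (y - algebraMap 𝒪 R b) +
      (algebraMap 𝒪 R b * (x - algebraMap 𝒪 R a) +
        (x - algebraMap 𝒪 R a) * (y - algebraMap 𝒪 R b)) := by rw [map_mul]; ring
  have hres : ∀ o : 𝒪, toBaseRes hs (residue R (algebraMap 𝒪 R o)) = residue 𝒪 o := fun o => by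
    rw [toBaseRes_residue, AlgHom.commutes]; rfl
  rw [tanDer_eq hs hϖ f (o := a * b)
    (by rw [map_mul, map_mul, residue_resLift, residue_resLift]), e,
    cotClass_add _ (Ideal.mul_mem_left _ _ hy)
      (add_mem (Ideal.mul_mem_left _ _ hx) (Ideal.mul_mem_right _ _ hx)),
    cotClass_add _ (Ideal.mul_mem_left _ _ hx) (Ideal.mul_mem_right _ _ hx),
    cotClass_mul _ _ hy, cotClass_mul _ _ hx,
    cotClass_eq_zero_of_sq _ (x := (x - algebraMap 𝒪 R a) * (y - algebraMap 𝒪 R b))
      (by rw [pow_two]; exact Ideal.mul_mem_mul hx hy), add_zero, map_add,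
    map_smul, map_smul, map_add, smul_eq_mul, smul_eq_mul, map_mul, map_mul, hres, hres,
    residue_resLift, residue_resLift, tanDer, tanDer]
  ring

/-- The lift to dual numbers along a functional. -/
def tanHom : R →ₐ[𝒪] DualNumber (ResidueField 𝒪) where
  toFun x := TrivSqZeroExt.inl (resK hs x) + TrivSqZeroExt.inr (tanDer hs f x)
  map_one' := by
    refine TrivSqZeroExt.ext ?_ ?_
    · simp
    · simp [show tanDer hs f (1 : R) = 0 by
        rw [← map_one (algebraMap 𝒪 R)]; exact tanDer_algebraMap hs hϖ f 1]
  map_mul' x y := by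
    refine TrivSqZeroExt.ext ?_ ?_
    · simp
    · simp [tanDer_mul hs hϖ f]
  map_zero' := by
    refine TrivSqZeroExt.ext ?_ ?_
    · simp
    · simp [show tanDer hs f (0 : R) = 0 by
        rw [← map_zero (algebraMap 𝒪 R)]; exact tanDer_algebraMap hs hϖ f 0]
  map_add' x y := by
    refine TrivSqZeroExt.ext ?_ ?_
    · simp
    · simp [tanDer_add hs hϖ f]
  commutes' o := by
    refine TrivSqZeroExt.ext ?_ ?_
    · simp [dual_algebraMap]
    · simp [dual_algebraMap, tanDer_algebraMap hs hϖ f]

/-- The first component of the map to dual numbers is the residual value. -/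
lemma fst_tanHom (x : R) : (tanHom hs hϖ f x).fst = resK hs x := by simp [tanHom]

/-- The second component of the map to dual numbers is the derivation. -/
lemma snd_tanHom (x : R) : (tanHom hs hϖ f x).snd = tanDer hs f x := by simp [tanHom]

include hs hϖ in
/-- A functional with vanishing derivative is zero. -/
lemma eq_zero_of_tanDer (h : ∀ x ∈ maximalIdeal R, tanDer hs f x = 0) : f = 0 := by
  refine LinearMap.ext fun y => ?_
  obtain ⟨x, hx, rfl⟩ := cotClass_surjective _ y
  have h1 := h x hx
  rw [tanDer_eq hs hϖ f (o := 0) (by rw [map_zero, (resK_eq_zero_iff hs x).mpr hx]), map_zero,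
    sub_zero] at h1
  rw [LinearMap.zero_apply]
  exact toBaseRes_injective hs (h1.trans (map_zero _).symm)

lemma tanDer_functional_add (g : Module.Dual (ResidueField R) (RelCot R (algebraMap 𝒪 R ϖ)))
    (x : R) : tanDer hs (f + g) x = tanDer hs f x + tanDer hs g x := by
  simp [tanDer]

/-- The derivative of the entries. -/
def derMat (M : MatRep R) (g : GQ) : Matrix (Fin 2) (Fin 2) (ResidueField 𝒪) :=
  (M g).map (tanDer hs f)

/-- The cocycle of a functional. -/
def tanCocycle (M : MatRep R) (g : GQ) : Matrix (Fin 2) (Fin 2) (ResidueField 𝒪) :=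
  derMat hs f M g * (M g⁻¹).map (resK hs)

/-- The cocycle is additive in the tangent functional. -/
lemma tanCocycle_functional_add
    (f' : Module.Dual (ResidueField R) (RelCot R (algebraMap 𝒪 R ϖ))) (M : MatRep R) :
    tanCocycle hs (f + f') M = tanCocycle hs f M + tanCocycle hs f' M := by
  funext g
  rw [Pi.add_apply, tanCocycle, tanCocycle, tanCocycle, ← add_mul]
  congr 1
  ext i j
  exact tanDer_functional_add hs f f' _

variable (M : MatRep R)

lemma resMat_mul (g h : GQ) : (M (g * h)).map (resK hs) =
    (M g).map (resK hs) * (M h).map (resK hs) := by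
  rw [map_mul, Matrix.map_mul]

/-- The residual matrices of `g` and `g⁻¹` are inverse to each other. -/
lemma resMat_mul_inv (g : GQ) : (M g).map (resK hs) * (M g⁻¹).map (resK hs) = 1 := by
  rw [← resMat_mul, mul_inv_cancel, map_one, Matrix.map_one _ (map_zero _) (map_one _)]

include hϖ in
lemma derMat_mul (g h : GQ) : derMat hs f M (g * h) =
    (M g).map (resK hs) * derMat hs f M h + derMat hs f M g * (M h).map (resK hs) := by
  ext i j
  simp only [derMat, Matrix.map_apply, Matrix.add_apply, Matrix.mul_apply, map_mul,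
    Fin.sum_univ_two, tanDer_add hs hϖ f, tanDer_mul hs hϖ f]
  ring

lemma derMat_eq (g : GQ) : derMat hs f M g = tanCocycle hs f M g * (M g).map (resK hs) := by
  rw [tanCocycle, mul_assoc, ← resMat_mul, inv_mul_cancel, map_one,
    Matrix.map_one _ (map_zero _) (map_one _), mul_one]

include hϖ in
/-- The cocycle identity. -/
theorem tanCocycle_mul (g h : GQ) : tanCocycle hs f M (g * h) = tanCocycle hs f M g +
    (M g).map (resK hs) * tanCocycle hs f M h * (M g⁻¹).map (resK hs) := by
  rw [tanCocycle, derMat_mul hs hϖ, mul_inv_rev, resMat_mul, add_mul, tanCocycle, tanCocycle]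
  simp only [mul_assoc]
  rw [← mul_assoc ((M h).map (resK hs)), resMat_mul_inv, one_mul, add_comm]

include hϖ in
/-- A determinant in the base gives trace zero. -/
theorem trace_tanCocycle (g : GQ) {a : 𝒪} (h : (M g).det = algebraMap 𝒪 R a) :
    (tanCocycle hs f M g).trace = 0 := by
  have h1 : tanDer hs f (M g).det = 0 := by rw [h, tanDer_algebraMap hs hϖ f]
  have hN : ((M g).map (resK hs)).det • (M g⁻¹).map (resK hs) =
      ((M g).map (resK hs)).adjugate := by
    calc _ = (((M g).map (resK hs)).det • (1 : Matrix (Fin 2) (Fin 2) (ResidueField 𝒪))) *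
          (M g⁻¹).map (resK hs) := by rw [smul_mul_assoc, one_mul]
      _ = _ := by
        rw [← Matrix.adjugate_mul, mul_assoc, resMat_mul_inv, mul_one]
  have h2 : ((M g).map (resK hs)).det * (tanCocycle hs f M g).trace = 0 := by
    rw [← smul_eq_mul, ← Matrix.trace_smul, tanCocycle, ← mul_smul_comm, hN,
      Matrix.adjugate_fin_two]
    rw [Matrix.det_fin_two, sub_eq_add_neg, neg_mul_eq_neg_mul, tanDer_add hs hϖ f,
      tanDer_mul hs hϖ f, tanDer_mul hs hϖ f] at h1
    have hneg : ∀ x, tanDer hs f (-x) = -tanDer hs f x := fun x => by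
      rw [eq_neg_iff_add_eq_zero, ← tanDer_add hs hϖ f, neg_add_cancel, ← map_zero (algebraMap 𝒪 R),
        tanDer_algebraMap hs hϖ f]
    rw [hneg, map_neg] at h1
    simp [Matrix.trace_fin_two, Matrix.mul_apply, Fin.sum_univ_two, derMat]
    linear_combination h1
  have hu : IsUnit ((M g).map (resK hs)).det := by
    refine (Matrix.isUnit_iff_isUnit_det _).mp ⟨⟨_, (M g⁻¹).map (resK hs), resMat_mul_inv hs M g,
      ?_⟩, rfl⟩
    have := resMat_mul_inv hs M g⁻¹
    rwa [inv_inv] at this
  exact hu.mul_left_cancel (h2.trans (mul_zero _).symm)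

/-- The zero functional has zero cocycle. -/
lemma tanCocycle_zero :
    tanCocycle hs (0 : Module.Dual (ResidueField R) (RelCot R (algebraMap 𝒪 R ϖ))) M = 0 := by
  have h := tanCocycle_functional_add hs (0 : Module.Dual (ResidueField R)
    (RelCot R (algebraMap 𝒪 R ϖ))) 0 M
  rw [add_zero] at h
  exact left_eq_add.mp h

/-- The entries of the deformation of a tangent vector. -/
lemma mapRep_tanHom_apply {M : MatRep R} {r : MatRep (ResidueField 𝒪)}
    (hres : ∀ g, (M g).map (resK hs) = r g) (g : GQ) (i j : Fin 2) :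
    mapRep (tanHom hs hϖ f : R →+* DualNumber (ResidueField 𝒪)) M g i j =
      TrivSqZeroExt.inl (r g i j) + TrivSqZeroExt.inr ((tanCocycle hs f M g * r g) i j) := by
  refine TrivSqZeroExt.ext ?_ ?_
  · simp only [mapRep_apply, Matrix.map_apply, RingHom.coe_coe, fst_tanHom, ← hres]
    simp
  · simp only [mapRep_apply, Matrix.map_apply, RingHom.coe_coe, snd_tanHom, ← hres, ← derMat_eq]
    simp [derMat]

/-- The cocycle is semilinear in the tangent vector. -/
lemma tanCocycle_smul (a : ResidueField R) (M : MatRep R) :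
    tanCocycle hs (a • f) M = toBaseRes hs a • tanCocycle hs f M := by
  funext g
  simp only [tanCocycle, Pi.smul_apply, ← smul_mul_assoc]
  congr 1
  ext i j
  show toBaseRes hs ((a • f) (cotClass _ _)) = toBaseRes hs a * toBaseRes hs (f (cotClass _ _))
  rw [← map_mul]
  rfl

end Derivation

/-- A coboundary deforms trivially. -/
lemma matConj_of_coboundary {k : Type} [Field k] {r : MatRep k}
    {N₀ N : MatRep (DualNumber k)} (hN₀ : ∀ g i j, N₀ g i j = TrivSqZeroExt.inl (r g i j))
    {c : GQ → Matrix (Fin 2) (Fin 2) k}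
    (hN : ∀ g i j, N g i j = TrivSqZeroExt.inl (r g i j) + TrivSqZeroExt.inr ((c g * r g) i j))
    {e : Matrix (Fin 2) (Fin 2) k} (he : ∀ g, c g = r g * e * r g⁻¹ - e) : MatConj N₀ N := by
  let E : Matrix (Fin 2) (Fin 2) (DualNumber k) := e.map TrivSqZeroExt.inr
  have hEE : E * E = 0 := by
    ext i j <;> simp [E, Matrix.mul_apply]
  let V : (Matrix (Fin 2) (Fin 2) (DualNumber k))ˣ :=
    ⟨1 - E, 1 + E, by rw [sub_mul, one_mul, mul_add, mul_one, hEE]; abel,
      by rw [add_mul, one_mul, mul_sub, mul_one, hEE]; abel⟩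
  refine ⟨V, fun g => ?_⟩
  have hf : c g * r g = r g * e - e * r g := by
    rw [he g, sub_mul, mul_assoc, ← map_mul, inv_mul_cancel, map_one, mul_one]
  have hf00 := fun i j => congrFun (congrFun hf i) j
  simp only [Matrix.sub_apply, Matrix.mul_apply, Fin.sum_univ_two] at hf00
  show N g = (1 - E) * N₀ g * (1 + E)
  refine Matrix.ext fun i j => TrivSqZeroExt.ext ?_ ?_ <;>
    fin_cases i <;> fin_cases j <;>
    simp [E, hN, hN₀, hf00, Matrix.mul_apply, Fin.sum_univ_two] <;>
    ring

end FermatAgent.RT
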