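import Mathlib
import Fermat.Agent.RT.Cond.Tangent

/-!
# Tangent vectors trivial at sites, over any lift

A functional on the cotangent space whose restriction to a framed site is trivial gives a cocycle
which is a coboundary at Frobenius and vanishes at inertia.
-/

set_option autoImplicit false

noncomputable section

open IsLocalRing GaloisRep FermatAgent.GaloisBasic
open scoped Matrix

namespace FermatAgent.RT

attribute [local instance] dualAlgebra

variable {𝒪 : Type} [CommRing 𝒪] [IsLocalRing 𝒪] {R : Type} [CommRing R] [IsLocalRing R]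
  [Algebra 𝒪 R] [IsLocalHom (algebraMap 𝒪 R)]
  (hs : Function.Surjective (residue R ∘ algebraMap 𝒪 R)) {ϖ : 𝒪}
  (hϖ : maximalIdeal 𝒪 = Ideal.span {ϖ})
  (f : Module.Dual (ResidueField R) (RelCot R (algebraMap 𝒪 R ϖ))) (M : MatRep R)

include hϖ in
/-- The derivative commutes with constant matrices. -/
lemma derMat_const_mul_const (C C' : Matrix (Fin 2) (Fin 2) 𝒪) (X : Matrix (Fin 2) (Fin 2) R) :
    ((algebraMap 𝒪 R).mapMatrix C * X * (algebraMap 𝒪 R).mapMatrix C').map (tanDer hs f) =
      C.map (residue 𝒪) * X.map (tanDer hs f) * C'.map (residue 𝒪) := by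
  ext i j
  simp only [RingHom.mapMatrix_apply, Matrix.map_apply, Matrix.mul_apply, Fin.sum_univ_two,
    tanDer_add hs hϖ f, tanDer_mul hs hϖ f, tanDer_algebraMap hs hϖ f, map_add, map_mul,
    AlgHom.commutes, ResidueField.algebraMap_eq]
  ring

include hϖ in
/-- **At a site a trivial tangent vector gives a locally trivial cocycle.** -/
theorem tanCocycle_site {σ : Type} {d : σ → FrameSite 𝒪 GQ} (hshape : ResidualShape M d)
    (hf : f ∈ tanLoc M d ϖ) (v : σ) :
    (∃ e, tanCocycle hs f M (d v).frob =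
        e - (M (d v).frob).map (resK hs) * e * (M (d v).frob⁻¹).map (resK hs)) ∧
      tanCocycle hs f M (d v).inert = 0 := by
  obtain ⟨e, he⟩ := hf v
  set F : Matrix (Fin 2) (Fin 2) (ResidueField 𝒪) :=
    (↑(d v).frame : Matrix (Fin 2) (Fin 2) 𝒪).map (residue 𝒪)
  set F' : Matrix (Fin 2) (Fin 2) (ResidueField 𝒪) :=
    (↑(d v).frame⁻¹ : Matrix (Fin 2) (Fin 2) 𝒪).map (residue 𝒪)
  have hFF : F * F' = 1 ∧ F' * F = 1 := by
    constructor <;>
    · simp only [F, F', ← Matrix.map_mul, Units.mul_inv, Units.inv_mul]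
      exact Matrix.map_one _ (map_zero _) (map_one _)
  set S₀ : Matrix (Fin 2) (Fin 2) (ResidueField 𝒪) := (d v).shape.map (residue 𝒪)
  have hres : ∀ (x : R) (o : 𝒪), x - algebraMap 𝒪 R o ∈ maximalIdeal R →
      residue 𝒪 o = resK hs x := fun x o h => by
    rw [← resK_eq_zero_iff hs, map_sub, sub_eq_zero, AlgHom.commutes] at h
    exact h.symm
  have hbase : ∀ g, (baseRep M d v g).map (tanDer hs f) = F' * derMat hs f M g * F := fun g =>
    derMat_const_mul_const hs hϖ f _ _ (M g)
  have hsbase : (baseRep M d v (d v).frob).map (resK hs) = S₀ := by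
    ext i j; exact (hres _ _ (hshape v i j).1).symm
  have hsr : F' * (M (d v).frob).map (resK hs) * F = S₀ := by
    rw [← hsbase]
    ext i j
    simp [baseRep, F, F', Matrix.mul_apply, Fin.sum_univ_two, ResidueField.algebraMap_eq]
  have hfrob : (baseRep M d v (d v).frob).map (tanDer hs f) =
      e.map (toBaseRes hs) * S₀ - S₀ * e.map (toBaseRes hs) := by
    ext i j
    rw [Matrix.map_apply, tanDer_eq hs hϖ f (hres _ _ (hshape v i j).1), (he i j).1]
    simp [resShape, S₀, Matrix.mul_apply, Fin.sum_univ_two, toBaseRes_residue,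
      ResidueField.algebraMap_eq]
  have hin : (baseRep M d v (d v).inert).map (tanDer hs f) = 0 := by
    ext i j
    set o : 𝒪 := (1 : Matrix (Fin 2) (Fin 2) 𝒪) i j
    have he1 : (1 : Matrix (Fin 2) (Fin 2) R) i j = algebraMap 𝒪 R o := by
      simp [o, Matrix.one_apply, apply_ite (algebraMap 𝒪 R)]
    have hm := (hshape v i j).2
    have h2 := (he i j).2
    rw [he1] at hm h2
    rw [Matrix.map_apply, tanDer_eq hs hϖ f (hres _ _ hm), h2, map_zero, Matrix.zero_apply]
  have hder : ∀ g X, F' * derMat hs f M g * F = X → derMat hs f M g = F * X * F' :=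
    fun g X h => by
      rw [← h]
      simp only [← mul_assoc, hFF.1, one_mul]
      rw [mul_assoc, hFF.1, mul_one]
  refine ⟨⟨F * e.map (toBaseRes hs) * F', ?_⟩, ?_⟩
  · have hd := hder _ _ ((hbase _).symm.trans hfrob)
    have hrr : (M (d v).frob).map (resK hs) * (M (d v).frob⁻¹).map (resK hs) = 1 :=
      resMat_mul_inv hs M _
    rw [tanCocycle, hd, ← hsr]
    simp only [mul_sub, sub_mul, mul_assoc, hFF.1, mul_one, ← mul_assoc F F', one_mul, hrr]
  · rw [tanCocycle, hder _ _ ((hbase _).symm.trans hin), mul_zero, zero_mul, zero_mul]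

end FermatAgent.RT
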