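import Mathlib
import Fermat.Agent.GaloisBasic.UniversalMap
import Fermat.Agent.RT.Cond.Tangent

/-!
# Good lifts from quotients of the universal ring

Maps killing a power of the maximal ideal give good lifts, and the universal representation reduces
to the residual one.
-/

set_option autoImplicit false

noncomputable section

open IsLocalRing GaloisRep FermatAgent.GaloisBasic
open scoped Matrix

namespace FermatAgent.RT

variable {𝒪 : Type} [CommRing 𝒪] [IsDomain 𝒪] [IsDiscreteValuationRing 𝒪]
  [IsAdicComplete (maximalIdeal 𝒪) 𝒪] [Finite (ResidueField 𝒪)]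

attribute [local instance] dualAlgebra

omit [IsAdicComplete (maximalIdeal 𝒪) 𝒪] in
/-- A map killing a power of the maximal ideal gives a good lift. -/
lemma goodLift_of_kills_pow {rbar : MatRep (ResidueField 𝒪)} {nd : NormData 𝒪 rbar}
    {𝒟 : ∀ ⦃A : Type⦄ [CommRing A] [IsLocalRing A] [Algebra 𝒪 A], GaloisRepAdic A → Prop}
    (h𝒟 : IsDeformationCondition 𝒪 𝒟) {A : Type} [CommRing A] [IsLocalRing A] [IsNoetherianRing A]
    [IsAdicComplete (maximalIdeal A) A] [Algebra 𝒪 A] [IsLocalHom (algebraMap 𝒪 A)]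
    (hs : Function.Surjective (residue A ∘ algebraMap 𝒪 A)) {M : MatRep A}
    (hM : MatContinuous A M) (hres : HasResidual rbar M) (hn : IsNormal nd M)
    (hcond : 𝒟 (toRep M hM)) {B : Type} [CommRing B] [IsLocalRing B] [Algebra 𝒪 B]
    [IsLocalHom (algebraMap 𝒪 B)]
    (hB : IsArtinianTestAlgebra 𝒪 B) (ψ : A →ₐ[𝒪] B) (n : ℕ)
    (hψ : ∀ x ∈ maximalIdeal A ^ (n + 1), ψ x = 0) :
    GoodLift nd 𝒟 (mapRep (ψ : A →+* B) M) := by
  obtain ⟨hloc, htest, -⟩ := isArtinianTestAlgebra_quotient (A := A) hs n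
  have : IsLocalHom (algebraMap 𝒪 (A ⧸ maximalIdeal A ^ (n + 1))) := htest.isLocalHom
  have hg := (goodLift_quotient h𝒟 hs hM hres hn hcond htest).map h𝒟 hB
    (Ideal.Quotient.liftₐ (maximalIdeal A ^ (n + 1)) ψ hψ)
  rw [mapRep_mapRep] at hg
  exact hg

variable (D : DefProblem 𝒪)

/-- The universal representation reduces to the residual one. -/
lemma univMat_resK (g : GQ) : (D.univMat g).map (resK D.residue_surjective_UR) = D.rbar g :=
  DFunLike.congr_fun (mapRep_resK (hA := D.residue_surjective_UR) D.univMat_residual) g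

end FermatAgent.RT
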